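import Fermat.Agent.Root.SummaryRoth
import Fermat.Agent.Root.SummaryNeronTateHeight
import Fermat.Agent.EC.TorsionCard
import Mathlib.NumberTheory.Height.NumberField
import Mathlib.FieldTheory.AlgebraicClosure

/-!
# Multiples of a rational point stay away from zero in the real topology

`x(m Q) - x(R) = G(x(Q)) / ΨSq_m(x(Q))` where `G = Φ_m - x(R) ΨSq_m` has `m²` simple roots, so by
Roth's theorem it is at least a constant times the cube of the inverse of the denominator of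
`x(Q)`. Hence `|x(m Q + R)|` is at most a constant times its sixth power, and with `m` large the
logarithm of the denominator of `x(n P)` is `n²` times the canonical height up to `o(n²)` (Siegel).
-/

set_option autoImplicit false
set_option linter.style.haveILetI false
set_option linter.unusedSectionVars false

noncomputable section

open WeierstrassCurve Polynomial FA.EC Filter Topology

namespace FA.PrimitiveEDS

/-- A rational number is at least the cube of the inverse denominator away from an algebraic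
number. -/
theorem exists_dist_lower {z : ℂ} (hz : IsAlgebraic ℚ z) :
    ∃ c : ℝ, 0 < c ∧ c ≤ 1 ∧
      ∀ v : ℚ, (v : ℂ) ≠ z → c * ((v.den : ℝ) ^ 3)⁻¹ ≤ ‖(v : ℂ) - z‖ := by
  have hd1 : ∀ v : ℚ, (1 : ℝ) ≤ v.den := fun v => by exact_mod_cast v.pos
  suffices h : ∃ c : ℝ, 0 < c ∧
      ∀ v : ℚ, (v : ℂ) ≠ z → c * ((v.den : ℝ) ^ 3)⁻¹ ≤ ‖(v : ℂ) - z‖ by
    obtain ⟨c, hc, h⟩ := h
    exact ⟨min c 1, lt_min hc one_pos, min_le_right _ _, fun v hv =>
      (mul_le_mul_of_nonneg_right (min_le_left _ _) (by positivity)).trans (h v hv)⟩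
  by_cases him : z.im = 0
  swap
  · refine ⟨|z.im|, abs_pos.mpr him, fun v _ => ?_⟩
    refine (mul_le_of_le_one_right (abs_nonneg _)
      (inv_le_one_of_one_le₀ (one_le_pow₀ (hd1 v)))).trans ?_
    refine le_trans (le_of_eq ?_) (Complex.abs_im_le_norm _)
    simp
  have hzr : z = ((z.re : ℝ) : ℂ) := Complex.ext rfl (by simp [him])
  have halg : IsAlgebraic ℚ z.re := by
    refine (isAlgebraic_algebraMap_iff (A := ℂ) Complex.ofReal_injective).1 ?_
    rw [Complex.coe_algebraMap, ← hzr]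
    exact hz
  have hnorm : ∀ v : ℚ, ‖(v : ℂ) - z‖ = |(v : ℝ) - z.re| := fun v => by
    conv_lhs => rw [hzr]
    rw [← Complex.ofReal_ratCast, ← Complex.ofReal_sub, Complex.norm_real, Real.norm_eq_abs]
  by_cases hirr : Irrational z.re
  · obtain ⟨c, hc, h⟩ := FA.Summary.roth_lower_bound halg hirr one_pos
    refine ⟨c, hc, fun v _ => ?_⟩
    rw [hnorm, abs_sub_comm]
    refine le_trans (le_of_eq ?_) (h v)
    rw [Real.rpow_neg (Nat.cast_nonneg _), show (2 : ℝ) + 1 = ((3 : ℕ) : ℝ) by norm_num,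
      Real.rpow_natCast]
  obtain ⟨r, hr⟩ : ∃ r : ℚ, (r : ℝ) = z.re := by simpa [Irrational] using hirr
  have hr0 : (0 : ℝ) < r.den := by exact_mod_cast r.pos
  refine ⟨(r.den : ℝ)⁻¹, inv_pos.mpr hr0, fun v hv => ?_⟩
  have hne : v - r ≠ 0 := fun h => hv (by rw [hzr, ← hr, sub_eq_zero.mp h]; simp)
  rw [hnorm, ← hr, ← Rat.cast_sub, ← Rat.num_div_den (v - r), Rat.cast_div, Rat.cast_intCast,
    Rat.cast_natCast, abs_div, Nat.abs_cast, ← mul_inv]
  have hnum : (1 : ℝ) ≤ |((v - r).num : ℝ)| := by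
    exact_mod_cast Int.one_le_abs (Rat.num_ne_zero.mpr hne)
  have hden : ((v - r).den : ℝ) ≤ (r.den : ℝ) * (v.den : ℝ) ^ 3 := by
    have h := Nat.le_of_dvd (Nat.mul_pos v.pos r.pos) (Rat.sub_den_dvd v r)
    have h' : ((v - r).den : ℝ) ≤ (v.den : ℝ) * r.den := by exact_mod_cast h
    refine h'.trans ?_
    rw [mul_comm]
    exact mul_le_mul_of_nonneg_left (le_self_pow₀ (hd1 v) (by norm_num)) hr0.le
  rw [inv_eq_one_div]
  exact div_le_div₀ (abs_nonneg _) hnum (by exact_mod_cast (v - r).pos) hden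

/-- **A polynomial with simple algebraic roots is not too small at rational numbers.** -/
theorem exists_eval_lower {G : ℂ[X]} (hm : G.Monic) (hnd : G.roots.Nodup)
    (halg : ∀ z ∈ G.roots, IsAlgebraic ℚ z) :
    ∃ c : ℝ, 0 < c ∧
      ∀ v : ℚ, G.eval (v : ℂ) ≠ 0 → c * ((v.den : ℝ) ^ 3)⁻¹ ≤ ‖G.eval (v : ℂ)‖ := by
  classical
  set R := G.roots.toFinset with hR
  have hev : ∀ v : ℂ, G.eval v = ∏ z ∈ R, (v - z) := fun v => by
    conv_lhs => rw [(IsAlgClosed.splits G).eq_prod_roots_of_monic hm]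
    rw [eval_multiset_prod, Finset.prod, hR, Multiset.toFinset_val, hnd.dedup, Multiset.map_map]
    exact congrArg Multiset.prod (Multiset.map_congr rfl fun z _ => by simp)
  have hc : ∀ z : ℂ, ∃ c : ℝ, 0 < c ∧ c ≤ 1 ∧ (z ∈ R →
      ∀ v : ℚ, (v : ℂ) ≠ z → c * ((v.den : ℝ) ^ 3)⁻¹ ≤ ‖(v : ℂ) - z‖) := fun z => by
    by_cases hz : z ∈ R
    · obtain ⟨c, hc, hc1, h⟩ := exists_dist_lower (halg z (Multiset.mem_toFinset.mp hz))
      exact ⟨c, hc, hc1, fun _ => h⟩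
    · exact ⟨1, one_pos, le_rfl, fun h => absurd h hz⟩
  choose c hc0 hc1 hc using hc
  set g : ℝ := (∏ p ∈ R.offDiag, min 1 ‖p.1 - p.2‖) / 2 with hg
  have hg0 : 0 < g := div_pos (Finset.prod_pos fun p hp => lt_min one_pos
    (norm_pos_iff.mpr (sub_ne_zero.mpr (Finset.mem_offDiag.mp hp).2.2))) two_pos
  have hprod1 : ∀ s : Finset (ℂ × ℂ), ∏ p ∈ s, min 1 ‖p.1 - p.2‖ ≤ 1 := fun s =>
    Finset.prod_le_one (fun p _ => le_min zero_le_one (norm_nonneg _)) fun p _ => min_le_left _ _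
  have hg1 : g ≤ 1 := by have := hprod1 R.offDiag; rw [hg]; linarith
  have hgap : ∀ z ∈ R, ∀ w ∈ R, z ≠ w → 2 * g ≤ ‖z - w‖ := fun z hz w hw hzw => by
    have hmem : (z, w) ∈ R.offDiag := Finset.mem_offDiag.mpr ⟨hz, hw, hzw⟩
    rw [hg, mul_div_cancel₀ _ two_ne_zero, ← Finset.mul_prod_erase _ _ hmem]
    exact (mul_le_of_le_one_right (le_min zero_le_one (norm_nonneg _)) (hprod1 _)).trans
      (min_le_right _ _)
  refine ⟨(∏ z ∈ R, c z) * g ^ R.card, mul_pos (Finset.prod_pos fun z _ => hc0 z) (pow_pos hg0 _),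
    fun v hv => ?_⟩
  have hd : ((v.den : ℝ) ^ 3)⁻¹ ≤ 1 := inv_le_one_of_one_le₀ (one_le_pow₀ (by exact_mod_cast v.pos))
  have hcp : ∀ s : Finset ℂ, ∏ z ∈ s, c z ≤ 1 := fun s =>
    Finset.prod_le_one (fun z _ => (hc0 z).le) fun z _ => hc1 z
  rw [hev] at hv ⊢
  rw [norm_prod]
  rcases R.eq_empty_or_nonempty with he | he
  · simp only [he, Finset.prod_empty, Finset.card_empty, pow_zero, one_mul]
    exact hd
  obtain ⟨w, hw, hmin⟩ := R.exists_min_image (fun z => ‖(v : ℂ) - z‖) he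
  rw [← Finset.mul_prod_erase _ _ hw, ← Finset.mul_prod_erase R (fun z => ‖(v : ℂ) - z‖) hw]
  have hfar : g ^ (R.erase w).card ≤ ∏ z ∈ R.erase w, ‖(v : ℂ) - z‖ := by
    refine (le_of_eq (Finset.prod_const g).symm).trans
      (Finset.prod_le_prod (fun _ _ => hg0.le) fun z hz => ?_)
    obtain ⟨hzw, hzR⟩ := Finset.mem_erase.mp hz
    have h1 := hgap z hzR w hw hzw
    have h2 := hmin z hzR
    have h3 := norm_sub_le_norm_sub_add_norm_sub z (v : ℂ) w
    rw [norm_sub_rev z (v : ℂ)] at h3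
    linarith
  have hnear : c w * ((v.den : ℝ) ^ 3)⁻¹ ≤ ‖(v : ℂ) - w‖ :=
    hc w hw v fun h => hv (Finset.prod_eq_zero hw (sub_eq_zero.mpr h))
  have hpow : g ^ R.card ≤ g ^ (R.erase w).card :=
    pow_le_pow_of_le_one hg0.le hg1 (Finset.card_erase_le)
  calc c w * (∏ z ∈ R.erase w, c z) * g ^ R.card * ((v.den : ℝ) ^ 3)⁻¹
      ≤ c w * 1 * g ^ (R.erase w).card * ((v.den : ℝ) ^ 3)⁻¹ :=
        mul_le_mul_of_nonneg_right (mul_le_mul (mul_le_mul_of_nonneg_left (hcp _) (hc0 w).le) hpow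
          (pow_nonneg hg0.le _) (mul_nonneg (hc0 w).le zero_le_one)) (by positivity)
    _ = c w * ((v.den : ℝ) ^ 3)⁻¹ * g ^ (R.erase w).card := by ring
    _ ≤ _ := mul_le_mul hnear hfar (pow_nonneg hg0.le _) (norm_nonneg _)

/-- **The polynomial of the abscissae of the parts of `R` has simple roots.** -/
theorem phi_sub_psi_spec {F : Type*} [Field F] [IsAlgClosed F] [CharZero F] [DecidableEq F]
    (V : WeierstrassCurve F) [V.IsElliptic] {R : V.toAffine.Point} (hR : R ≠ 0)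
    (hR2 : R + R ≠ 0) {m : ℕ} (hm : m ≠ 0) :
    (V.Φ m - C (xc R) * V.ΨSq m).Monic ∧ (V.Φ m - C (xc R) * V.ΨSq m).natDegree = m ^ 2 ∧
      (V.Φ m - C (xc R) * V.ΨSq m).roots.Nodup := by
  classical
  have hm2 : 0 < m ^ 2 := by positivity
  set G := V.Φ m - C (xc R) * V.ΨSq m with hG
  have hΦd : (V.Φ m).natDegree = m ^ 2 := by simp [V.natDegree_Φ (m : ℤ)]
  have hlt : (C (xc R) * V.ΨSq m).degree < (V.Φ m).degree := by
    refine degree_lt_degree (lt_of_le_of_lt ((natDegree_C_mul_le _ _).trans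
      (V.natDegree_ΨSq_le (m : ℤ))) ?_)
    rw [hΦd, Int.natAbs_natCast]
    omega
  have hmon : G.Monic := Monic.sub_of_left (V.leadingCoeff_Φ (m : ℤ)) hlt
  have hdeg : G.natDegree = m ^ 2 := by
    rw [hG, natDegree_eq_of_degree_eq (degree_sub_eq_left_of_degree_lt hlt), hΦd]
  refine ⟨hmon, hdeg, ?_⟩
  obtain ⟨α, hα⟩ := IsAlgClosed.exists_root G
    (fun h => by rw [natDegree_eq_zero_iff_degree_le_zero.mpr h.le] at hdeg; omega)
  simp only [hG, IsRoot.def, eval_sub, eval_mul, eval_C, sub_eq_zero] at hα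
  have hΨ : (V.ΨSq m).eval α ≠ 0 := fun h0 => numDen_ne_zero V (m : ℤ) α (by
    rw [h0, mul_zero] at hα
    funext i
    fin_cases i
    · exact hα
    · exact h0)
  obtain ⟨β, hβ⟩ := exists_nonsingular V α
  set T : V.toAffine.Point := .some α β hβ
  have hmT0 : m • T ≠ 0 := fun h => hΨ ((nsmul_eq_zero_iff hβ m).mp h)
  have hmT : xc (m • T) = xc R := by
    have h := xc_zsmul hβ (m : ℤ) (by rwa [natCast_zsmul])
    rw [natCast_zsmul] at h
    rw [h, hα, mul_div_cancel_right₀ _ hΨ]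
  have hmT2 : m • T + m • T ≠ 0 := by
    rcases eq_or_eq_neg_of_xc_eq hmT0 hR hmT with h | h <;> rw [h]
    · exact hR2
    · rw [← neg_add, neg_ne_zero]; exact hR2
  have hsub : (fun P : {P : V.toAffine.Point // m • P = 0} => xc (T + P.1)) '' Set.univ ⊆
      (G.roots.toFinset : Set F) := by
    rintro _ ⟨⟨P, hP⟩, -, rfl⟩
    have he : m • (T + P) = m • T := by rw [nsmul_add, hP, add_zero]
    have h0 : T + P ≠ 0 := fun h => hmT0 (by rw [← he, h, nsmul_zero])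
    obtain ⟨u, w, h, hw⟩ := exists_some_of_ne_zero h0
    rw [Finset.mem_coe, Multiset.mem_toFinset, mem_roots hmon.ne_zero]
    simp only [hG, IsRoot.def, eval_sub, eval_mul, eval_C, sub_eq_zero]
    rw [hw] at he ⊢
    have := phi_eq_xc_mul h (m : ℤ) (by rw [natCast_zsmul, he]; exact hmT0)
    rwa [natCast_zsmul, he, hmT] at this
  have hinj : Function.Injective fun P : {P : V.toAffine.Point // m • P = 0} => xc (T + P.1) := by
    rintro ⟨P, hP⟩ ⟨P', hP'⟩ h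
    have h0 : ∀ {Q : V.toAffine.Point}, m • Q = 0 → T + Q ≠ 0 := fun hQ h => hmT0 (by
      have := congrArg (m • ·) h
      simpa [nsmul_add, hQ] using this)
    rcases eq_or_eq_neg_of_xc_eq (h0 hP) (h0 hP') h with h | h
    · exact Subtype.ext (add_left_cancel h)
    · refine absurd (congrArg (m • ·) h) fun he => hmT2 ?_
      simp only [nsmul_add, smul_neg, hP, hP', add_zero] at he
      nth_rw 1 [he]
      exact neg_add_cancel _
  have hcard := Set.ncard_le_ncard hsub (Finset.finite_toSet _)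
  rw [Set.ncard_image_of_injective _ hinj, Set.ncard_univ, Set.ncard_coe_finset,
    natCard_nsmul_eq_zero V (Nat.cast_ne_zero.mpr hm), ← hdeg,
    ← IsAlgClosed.card_roots_eq_natDegree] at hcard
  exact Multiset.toFinset_card_eq_card_iff_nodup.mp (le_antisymm (Multiset.toFinset_card_le _)
    hcard)

/-- A polynomial of degree at most `N` grows at most like `|v| ^ N`. -/
theorem norm_eval_le {P : ℂ[X]} {N : ℕ} (hN : P.natDegree ≤ N) (v : ℂ) :
    ‖P.eval v‖ ≤ (∑ i ∈ Finset.range (N + 1), ‖P.coeff i‖) * max 1 ‖v‖ ^ N := by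
  rw [eval_eq_sum_range' (show P.natDegree < N + 1 by omega), Finset.sum_mul]
  refine (norm_sum_le _ _).trans (Finset.sum_le_sum fun i hi => ?_)
  rw [norm_mul, norm_pow]
  refine mul_le_mul_of_nonneg_left ((pow_le_pow_left₀ (norm_nonneg _) (le_max_right 1 _) i).trans
    (pow_le_pow_right₀ (le_max_left _ _) ?_)) (norm_nonneg _)
  have := Finset.mem_range.mp hi
  omega

variable (E : WeierstrassCurve ℚ) [E.IsElliptic]

/-- A root of a polynomial with algebraic coefficients is algebraic. -/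
theorem isAlgebraic_root {G : ℂ[X]} (hc : ∀ i, IsAlgebraic ℚ (G.coeff i)) (hG : G ≠ 0) {z : ℂ}
    (hz : G.IsRoot z) : IsAlgebraic ℚ z := by
  have hmem : G ∈ Polynomial.lifts (algebraMap (algebraicClosure ℚ ℂ) ℂ) := by
    rw [Polynomial.lifts_iff_coeff_lifts]
    exact fun i => ⟨⟨G.coeff i, mem_algebraicClosure_iff.mpr (hc i)⟩, rfl⟩
  obtain ⟨G', hG'⟩ := (Polynomial.mem_lifts G).mp hmem
  have h : IsAlgebraic (algebraicClosure ℚ ℂ) z := by
    refine ⟨G', fun h => hG (by rw [← hG', h, Polynomial.map_zero]), ?_⟩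
    rwa [IsRoot.def, ← hG', eval_map] at hz
  haveI : Algebra.IsAlgebraic ℚ (algebraicClosure ℚ ℂ) := algebraicClosure.isAlgebraic ℚ ℂ
  exact h.restrictScalars ℚ

/-- **`x(m Q)` is not too close to an algebraic abscissa off the 2-torsion.** -/
theorem exists_sub_lower_complex {R : (E.map (algebraMap ℚ ℂ)).toAffine.Point} (hR : R ≠ 0)
    (hR2 : R + R ≠ 0) (hβ : IsAlgebraic ℚ (xc R)) {m : ℕ} (hm : m ≠ 0) :
    ∃ c : ℝ, 0 < c ∧ ∀ Q : E.toAffine.Point, m • Q ≠ 0 → ((xc (m • Q) : ℚ) : ℂ) ≠ xc R →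
      c * (((xc Q).den : ℝ) ^ 3)⁻¹ ≤ ‖((xc (m • Q) : ℚ) : ℂ) - xc R‖ := by
  classical
  obtain ⟨hmon, hdeg, hnd⟩ := phi_sub_psi_spec (E.map (algebraMap ℚ ℂ)) hR hR2 hm
  set β := xc R
  set G := (E.map (algebraMap ℚ ℂ)).Φ m - C β * (E.map (algebraMap ℚ ℂ)).ΨSq m with hG
  have halg : ∀ z ∈ G.roots, IsAlgebraic ℚ z := fun z hz =>
    isAlgebraic_root (fun i => by
      rw [hG, coeff_sub, coeff_C_mul, map_Φ, map_ΨSq, coeff_map, coeff_map]
      exact (isAlgebraic_algebraMap _).sub (hβ.mul (isAlgebraic_algebraMap _)))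
      hmon.ne_zero ((mem_roots hmon.ne_zero).mp hz)
  obtain ⟨c₁, hc₁, hlow⟩ := exists_eval_lower hmon hnd halg
  have hN : ((E.map (algebraMap ℚ ℂ)).ΨSq m).natDegree ≤ m ^ 2 - 1 := by
    simpa using (E.map (algebraMap ℚ ℂ)).natDegree_ΨSq_le (m : ℤ)
  set M := ∑ i ∈ Finset.range (m ^ 2 - 1 + 1), ‖((E.map (algebraMap ℚ ℂ)).ΨSq m).coeff i‖ + 1
    with hM
  have hM0 : 0 < M := by
    rw [hM]; exact add_pos_of_nonneg_of_pos (Finset.sum_nonneg fun i _ => norm_nonneg _) one_pos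
  set B := max 1 (2 * (G.roots.map fun z => ‖z‖).sum) with hB
  have hB1 : 1 ≤ B := le_max_left _ _
  refine ⟨min (c₁ / (M * B ^ (m ^ 2 - 1))) (1 / (M * 2 ^ m ^ 2)),
    lt_min (by positivity) (by positivity), fun Q hQ hne => ?_⟩
  have hQ0 : Q ≠ 0 := fun h => hQ (by rw [h, nsmul_zero])
  obtain ⟨u, w, h, rfl⟩ := exists_some_of_ne_zero hQ0
  rw [xc_some]
  have hd : ((u.den : ℝ) ^ 3)⁻¹ ≤ 1 := inv_le_one_of_one_le₀ (one_le_pow₀ (by exact_mod_cast u.pos))
  have hd0 : (0 : ℝ) ≤ ((u.den : ℝ) ^ 3)⁻¹ := by positivity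
  have hΨ0 : (E.ΨSq m).eval u ≠ 0 := fun h0 => hQ ((nsmul_eq_zero_iff h m).mpr h0)
  have hxm := phi_eq_xc_mul h (m : ℤ) (by rwa [natCast_zsmul])
  rw [natCast_zsmul] at hxm
  set Δx := ((xc (m • Affine.Point.some u w h) : ℚ) : ℂ) - β with hΔ
  have heq : G.eval (u : ℂ) = Δx * ((E.map (algebraMap ℚ ℂ)).ΨSq m).eval (u : ℂ) := by
    rw [hΔ, hG, map_Φ, map_ΨSq, eval_sub, eval_mul, eval_C,
      show (u : ℂ) = algebraMap ℚ ℂ u from (eq_ratCast _ u).symm, eval_map_apply,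
      eval_map_apply, hxm,
      show ∀ a : ℚ, (a : ℂ) = algebraMap ℚ ℂ a from fun a => (eq_ratCast _ a).symm, map_mul]
    ring
  have hΔ0 : Δx ≠ 0 := sub_ne_zero.mpr hne
  have hne0 : G.eval (u : ℂ) ≠ 0 := by
    rw [heq, map_ΨSq, show (u : ℂ) = algebraMap ℚ ℂ u from (eq_ratCast _ u).symm, eval_map_apply]
    exact mul_ne_zero hΔ0 (by simpa using hΨ0)
  have hnorm : ‖G.eval (u : ℂ)‖ ≤ ‖Δx‖ * (M * max 1 ‖(u : ℂ)‖ ^ (m ^ 2 - 1)) := by
    rw [heq, norm_mul]
    refine mul_le_mul_of_nonneg_left ((norm_eval_le hN _).trans ?_) (norm_nonneg _)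
    exact mul_le_mul_of_nonneg_right (by rw [hM]; linarith) (by positivity)
  rcases le_or_gt ‖(u : ℂ)‖ B with hsmall | hbig
  · refine (mul_le_mul_of_nonneg_right (min_le_left _ _) hd0).trans ?_
    rw [div_mul_eq_mul_div, div_le_iff₀ (by positivity)]
    exact (hlow u hne0).trans (hnorm.trans (mul_le_mul_of_nonneg_left (mul_le_mul_of_nonneg_left
      (pow_le_pow_left₀ (le_trans zero_le_one (le_max_left _ _)) (max_le hB1 hsmall) _) hM0.le)
      (norm_nonneg _)))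
  · refine (mul_le_mul (min_le_right _ _) hd hd0 (by positivity)).trans ?_
    rw [mul_one, div_le_iff₀ (by positivity)]
    have hu1 : 1 ≤ ‖(u : ℂ)‖ := hB1.trans hbig.le
    rw [max_eq_right hu1] at hnorm
    have hprod : (‖(u : ℂ)‖ / 2) ^ m ^ 2 ≤ ‖G.eval (u : ℂ)‖ := by
      conv_rhs => rw [(IsAlgClosed.splits G).eq_prod_roots_of_monic hmon]
      have hnp : ∀ S : Multiset ℂ, ‖S.prod‖ = (S.map (‖·‖)).prod := map_multiset_prod normHom
      rw [eval_multiset_prod, hnp, Multiset.map_map, Multiset.map_map]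
      rw [show (‖(u : ℂ)‖ / 2) ^ m ^ 2 = (G.roots.map fun _ => ‖(u : ℂ)‖ / 2).prod by
        rw [Multiset.map_const', Multiset.prod_replicate, IsAlgClosed.card_roots_eq_natDegree,
          hdeg]]
      refine Multiset.prod_map_le_prod_map₀ _ _ (fun z _ => by positivity) fun z hz => ?_
      simp only [Function.comp_apply, eval_sub, eval_X, eval_C]
      have h1 : ‖z‖ ≤ (G.roots.map fun z => ‖z‖).sum :=
        Multiset.single_le_sum (fun x hx => by
          obtain ⟨y, -, rfl⟩ := Multiset.mem_map.mp hx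
          exact norm_nonneg _) _ (Multiset.mem_map_of_mem _ hz)
      have h2 := norm_sub_norm_le (u : ℂ) z
      have h3 : 2 * (G.roots.map fun z => ‖z‖).sum ≤ B := le_max_right _ _
      linarith
    have hm2 : m ^ 2 = m ^ 2 - 1 + 1 := by
      have : 0 < m ^ 2 := by positivity
      omega
    have hchain := hprod.trans hnorm
    set N := m ^ 2 - 1
    rw [hm2, div_pow, pow_succ, div_le_iff₀ (by positivity)] at hchain
    rw [hm2]
    have hpos : (0 : ℝ) < ‖(u : ℂ)‖ ^ N := pow_pos (by linarith) _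
    refine le_of_mul_le_mul_left ?_ hpos
    have h4 := mul_le_mul_of_nonneg_left hu1 hpos.le
    rw [mul_one] at h4 ⊢
    calc ‖(u : ℂ)‖ ^ N ≤ _ := h4.trans hchain
      _ = _ := by ring

/-- **`x(m Q)` is not too close to `x(R)`.** -/
theorem exists_sub_lower {R : E.toAffine.Point} (hR : R ≠ 0) (hR2 : R + R ≠ 0) {m : ℕ}
    (hm : m ≠ 0) :
    ∃ c : ℝ, 0 < c ∧ ∀ Q : E.toAffine.Point, m • Q ≠ 0 → xc (m • Q) ≠ xc R →
      c * (((xc Q).den : ℝ) ^ 3)⁻¹ ≤ |((xc (m • Q) - xc R : ℚ) : ℝ)| := by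
  classical
  set φ := algebraMap ℚ ℂ
  obtain ⟨Y, hY⟩ := exists_nonsingular (E.map φ) (φ (xc R))
  obtain ⟨c, hc, h⟩ := exists_sub_lower_complex E (Affine.Point.some_ne_zero hY) (fun h => by
    have h1 := pc_sq (Affine.Point.some_ne_zero hY)
    rw [pc_eq_zero_of_add_self h, zero_pow two_ne_zero, xc_some, map_Ψ₂Sq, eval_map,
      eval₂_at_apply, eq_comm, map_eq_zero] at h1
    have h2 := pc_sq hR
    rw [h1] at h2
    exact hR2 (add_self_eq_zero_of_pc_eq_zero (sq_eq_zero_iff.mp h2)))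
    (by rw [xc_some]; exact isAlgebraic_algebraMap _) hm
  refine ⟨c, hc, fun Q hQ hne => ?_⟩
  have h' := h Q hQ (by rw [xc_some, eq_ratCast]; exact fun e => hne (Rat.cast_injective e))
  rwa [xc_some, eq_ratCast, ← Rat.cast_sub, Complex.norm_ratCast] at h'

/-- **`x(m Q + R)` is at most a power of the denominator of `x(Q)`.** -/
theorem exists_xc_add_le {R : E.toAffine.Point} (hR : R ≠ 0) (hR2 : R + R ≠ 0) {m : ℕ}
    (hm : m ≠ 0) :
    ∃ K : ℝ, 1 ≤ K ∧ ∀ Q : E.toAffine.Point, m • Q ≠ 0 → xc (m • Q) ≠ xc R →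
      max |((xc (m • Q + R) : ℚ) : ℝ)| 1 ≤ K * ((xc Q).den : ℝ) ^ 6 := by
  obtain ⟨c, hc, hlow⟩ := exists_sub_lower E hR hR2 hm
  set s : ℝ := ((xc R : ℚ) : ℝ)
  obtain ⟨A, hA⟩ : ∃ A : ℝ, A = |2 * s| + |4 * s ^ 2 + E.b₂ * s + E.b₄ + 2 * s ^ 2| +
      |4 * s ^ 3 + E.b₂ * s ^ 2 + 2 * E.b₄ * s + E.b₆| + |s ^ 2| +
      |2 * s ^ 3 - E.b₄ * s - E.b₆| + |s ^ 4 - E.b₄ * s ^ 2 - 2 * E.b₆ * s - E.b₈| + 1 := ⟨_, rfl⟩
  have hA1 : 1 ≤ A := by
    rw [hA]
    linarith [abs_nonneg (2 * s),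
      abs_nonneg (4 * s ^ 2 + E.b₂ * s + E.b₄ + 2 * s ^ 2),
      abs_nonneg (4 * s ^ 3 + E.b₂ * s ^ 2 + 2 * E.b₄ * s + E.b₆), abs_nonneg (s ^ 2),
      abs_nonneg (2 * s ^ 3 - E.b₄ * s - E.b₆),
      abs_nonneg (s ^ 4 - E.b₄ * s ^ 2 - 2 * E.b₆ * s - E.b₈)]
  refine ⟨A * (1 + (c ^ 2)⁻¹), one_le_mul_of_one_le_of_one_le hA1
    (le_add_of_nonneg_right (by positivity)), fun Q hQ hne => ?_⟩
  obtain ⟨hsum, hprod⟩ := xc_add_sub_formula hQ hR hne
  have hsum' := congrArg (fun q : ℚ => (q : ℝ)) hsum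
  have hprod' := congrArg (fun q : ℚ => (q : ℝ)) hprod
  push_cast at hsum' hprod'
  set δ : ℝ := ((xc (m • Q) : ℚ) : ℝ) - s with hδ
  have hδ0 : δ ≠ 0 := sub_ne_zero.mpr fun h => hne (Rat.cast_injective h)
  have ht : ((xc (m • Q) : ℚ) : ℝ) = s + δ := by rw [hδ]; ring
  rw [ht] at hsum' hprod'
  set x := ((xc (m • Q + R) : ℚ) : ℝ)
  set x' := ((xc (m • Q - R) : ℚ) : ℝ)
  set U := 1 + (δ ^ 2)⁻¹ with hU
  have hU1 : 1 ≤ U := le_add_of_nonneg_right (by positivity)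
  have hbound : ∀ a b e : ℝ, |a + b * δ⁻¹ + e * (δ ^ 2)⁻¹| ≤ (|a| + |b| + |e|) * U := by
    intro a b e
    have h1 : |δ⁻¹| ≤ U := by
      rw [hU, ← inv_pow, ← sq_abs δ⁻¹]
      nlinarith [sq_nonneg (|δ⁻¹| - 1)]
    have h2 : |(δ ^ 2)⁻¹| ≤ U := by
      rw [abs_of_nonneg (by positivity), hU]
      linarith
    refine (abs_add_three _ _ _).trans ?_
    rw [abs_mul, abs_mul, add_mul, add_mul]
    exact add_le_add (add_le_add (le_mul_of_one_le_right (abs_nonneg _) hU1)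
      (mul_le_mul_of_nonneg_left h1 (abs_nonneg _))) (mul_le_mul_of_nonneg_left h2 (abs_nonneg _))
  have hS : x + x' = 2 * s + (4 * s ^ 2 + E.b₂ * s + E.b₄ + 2 * s ^ 2) * δ⁻¹ +
      (4 * s ^ 3 + E.b₂ * s ^ 2 + 2 * E.b₄ * s + E.b₆) * (δ ^ 2)⁻¹ := by
    field_simp
    linear_combination hsum'
  have hP : x * x' = s ^ 2 + (2 * s ^ 3 - E.b₄ * s - E.b₆) * δ⁻¹ +
      (s ^ 4 - E.b₄ * s ^ 2 - 2 * E.b₆ * s - E.b₈) * (δ ^ 2)⁻¹ := by
    field_simp
    linear_combination hprod'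
  have hx : |x| ≤ |x + x'| + |x * x'| + 1 := by
    rcases le_or_gt |x| 1 with h | h
    · linarith [abs_nonneg (x + x'), abs_nonneg (x * x')]
    · have h1 : x ^ 2 ≤ |x + x'| * |x| + |x * x'| := by
        rw [← abs_mul]
        linarith [le_abs_self ((x + x') * x), neg_abs_le (x * x'),
          show x ^ 2 = (x + x') * x - x * x' by ring]
      nlinarith [sq_abs x, abs_nonneg (x * x'), abs_nonneg (x + x')]
  rw [hS, hP] at hx
  have hxA : max |x| 1 ≤ A * U := by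
    refine max_le ?_ (one_le_mul_of_one_le_of_one_le hA1 hU1)
    refine hx.trans ((add_le_add (add_le_add (hbound _ _ _) (hbound _ _ _)) hU1).trans
      (le_of_eq ?_))
    rw [hA]; ring
  refine hxA.trans ?_
  rw [mul_assoc]
  refine mul_le_mul_of_nonneg_left ?_ (by linarith)
  have hl := hlow Q hQ hne
  push_cast at hl
  have hd : (1 : ℝ) ≤ ((xc Q).den : ℝ) := by exact_mod_cast (xc Q).pos
  have hpos : 0 < c * (((xc Q).den : ℝ) ^ 3)⁻¹ := by positivity
  have h2 : (δ ^ 2)⁻¹ ≤ ((c * (((xc Q).den : ℝ) ^ 3)⁻¹) ^ 2)⁻¹ := by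
    rw [← sq_abs δ]
    exact inv_anti₀ (by positivity) (pow_le_pow_left₀ hpos.le hl 2)
  rw [hU, add_mul, one_mul]
  refine add_le_add (one_le_pow₀ hd) (h2.trans (le_of_eq ?_))
  field_simp

/-- The height of a point is the logarithm of its denominator and its size. -/
theorem logHeight_xRep {P : E.toAffine.Point} (hP : P ≠ 0) :
    Height.logHeight P.xRep = Real.log ((xc P).den) + Real.log (max |((xc P : ℚ) : ℝ)| 1) := by
  rw [xRep_of_ne_zero hP, ← Height.logHeight₁_eq_logHeight, Rat.logHeight₁_eq_log_max,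
    ← Real.log_mul (Nat.cast_ne_zero.mpr (Rat.den_nz _))
      (lt_of_lt_of_le one_pos (le_max_right _ _)).ne']
  congr 1
  have hd : (0 : ℝ) < (xc P).den := Nat.cast_pos.mpr (Rat.pos _)
  rw [mul_max_of_nonneg _ _ hd.le, mul_one, Nat.cast_max, Nat.cast_natAbs, Int.cast_abs]
  congr 1
  rw [Rat.cast_def, abs_div, Nat.abs_cast, mul_div_cancel₀ _ hd.ne']

/-- **The archimedean part of the height of `n P` is at most six times that of a smaller
multiple.** -/
theorem exists_log_max_le {P : E.toAffine.Point} (hP : ¬ IsOfFinAddOrder P) {m : ℕ}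
    (hm : m ≠ 0) :
    ∃ K : ℝ, ∀ n : ℕ, 3 * m < n → Real.log (max |((xc (n • P) : ℚ) : ℝ)| 1) ≤
      6 * Real.log ((xc (((n - 1) / m) • P)).den) + K := by
  have hne : ∀ {k : ℕ}, k ≠ 0 → k • P ≠ 0 := fun hk h => hP <|
    isOfFinAddOrder_iff_nsmul_eq_zero.mpr ⟨_, Nat.pos_of_ne_zero hk, h⟩
  have hK : ∀ r : Fin m, _ := fun r : Fin m => exists_xc_add_le E (R := (r.1 + 1) • P)
    (hne (by omega)) (by rw [← add_nsmul]; exact hne (by omega)) hm
  choose K hK1 hK using hK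
  refine ⟨∑ r, Real.log (K r), fun n hn => ?_⟩
  set j := (n - 1) / m with hj
  have hm0 : 0 < m := Nat.pos_of_ne_zero hm
  have hr : (n - 1) % m < m := Nat.mod_lt _ hm0
  have hnj : n = m * j + ((n - 1) % m + 1) := by
    have := Nat.div_add_mod (n - 1) m
    rw [hj]
    omega
  have hj2 : 2 ≤ j := by rw [hj, Nat.le_div_iff_mul_le hm0]; omega
  have h2m : 2 * m ≤ m * j := by rw [mul_comm 2 m]; exact Nat.mul_le_mul_left m hj2
  have hb := hK ⟨(n - 1) % m, hr⟩ (j • P) (by rw [← mul_nsmul']; exact hne (by omega))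
    (fun he => by
      rw [← mul_nsmul'] at he
      rcases eq_or_eq_neg_of_xc_eq (hne (by omega)) (hne (by omega)) he with h | h
      · have := injective_nsmul_iff_not_isOfFinAddOrder.mpr hP h
        simp only at this
        omega
      · rw [eq_neg_iff_add_eq_zero, ← add_nsmul] at h
        exact hne (by omega) h)
  rw [← mul_nsmul', ← add_nsmul, ← hnj] at hb
  have hd : (1 : ℝ) ≤ ((xc (j • P)).den : ℝ) := by
    exact_mod_cast (xc (j • P)).pos
  have h1 := Real.log_le_log (lt_of_lt_of_le one_pos (le_max_right _ _)) hb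
  rw [Real.log_mul (by linarith [hK1 ⟨_, hr⟩]) (by positivity), Real.log_pow] at h1
  have h2 := Finset.single_le_sum (f := fun r => Real.log (K r))
    (fun r _ => Real.log_nonneg (hK1 r)) (Finset.mem_univ (⟨(n - 1) % m, hr⟩ : Fin m))
  push_cast at h1
  linarith

/-- **Siegel's theorem for the multiples**: the logarithm of the denominator of `x(n P)` is `n²`
times the canonical height up to `o(n²)`. -/
theorem tendsto_log_den {f : E.toAffine.Point → ℝ}
    (hf : ∃ C, ∀ P, |f P - Height.logHeight P.xRep| ≤ C) (h2 : ∀ P, f (2 • P) = 4 * f P)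
    {P : E.toAffine.Point} (hP : ¬ IsOfFinAddOrder P) :
    Tendsto (fun n : ℕ => Real.log ((xc (n • P)).den) / (n : ℝ) ^ 2) atTop (𝓝 (f P)) := by
  obtain ⟨-, hsq, hnn, -, -⟩ := FA.Summary.canonicalHeight_properties E hf h2
  obtain ⟨D, hD⟩ := hf
  have hne : ∀ {k : ℕ}, k ≠ 0 → k • P ≠ 0 := fun hk h => hP <|
    isOfFinAddOrder_iff_nsmul_eq_zero.mpr ⟨_, Nat.pos_of_ne_zero hk, h⟩
  have hh : ∀ k : ℕ, k ≠ 0 →
      |(k : ℝ) ^ 2 * f P - (Real.log ((xc (k • P)).den) +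
        Real.log (max |((xc (k • P) : ℚ) : ℝ)| 1))| ≤ D := fun k hk => by
    rw [← logHeight_xRep E (hne hk)]
    have := hsq (k : ℤ) P
    rw [natCast_zsmul, Int.cast_natCast] at this
    rw [← this]
    exact hD _
  rw [Metric.tendsto_atTop]
  intro ε hε
  obtain ⟨m, hm⟩ := exists_nat_gt (max 1 (12 * f P / ε))
  have hm1 : (1 : ℝ) < m := lt_of_le_of_lt (le_max_left _ _) hm
  have hm0 : m ≠ 0 := fun h => by rw [h, Nat.cast_zero] at hm1; linarith
  obtain ⟨K, hK⟩ := exists_log_max_le E hP hm0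
  obtain ⟨N, hN⟩ := exists_nat_gt (2 * (|K| + 7 * |D|) / ε)
  refine ⟨max (3 * m + 1) (N + 1), fun n hn => ?_⟩
  have hn1 : 3 * m < n := by omega
  have hn2 : N < n := by omega
  have hn0 : (1 : ℝ) ≤ n := by exact_mod_cast (show 1 ≤ n by omega)
  set j := (n - 1) / m with hj
  have hj0 : j ≠ 0 := by
    rw [hj, ne_eq, Nat.div_eq_zero_iff]
    omega
  have hjn : (j : ℝ) * m ≤ n := by
    exact_mod_cast (Nat.div_mul_le_self (n - 1) m).trans (Nat.sub_le n 1)
  have hk := hK n hn1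
  have hA := abs_le.mp (hh n (by omega))
  have hB := abs_le.mp (hh j hj0)
  have hA0 : 0 ≤ Real.log (max |((xc (n • P) : ℚ) : ℝ)| 1) := Real.log_nonneg (le_max_right _ _)
  have hB0 : 0 ≤ Real.log (max |((xc (j • P) : ℚ) : ℝ)| 1) := Real.log_nonneg (le_max_right _ _)
  have hf0 := hnn P
  have hjj : (m : ℝ) * ((j : ℝ) ^ 2 * f P) ≤ (n : ℝ) ^ 2 * f P := by
    have h1 : (m : ℝ) * (j : ℝ) ^ 2 ≤ ((j : ℝ) * m) ^ 2 := by
      rw [mul_pow, mul_comm]
      exact mul_le_mul_of_nonneg_left (by nlinarith) (sq_nonneg _)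
    rw [← mul_assoc]
    exact mul_le_mul_of_nonneg_right (h1.trans (pow_le_pow_left₀ (by positivity) hjn 2)) hf0
  have hm12 : 12 * f P ≤ m * ε := by
    have := (le_max_right _ _).trans_lt hm
    rw [div_lt_iff₀ hε] at this
    linarith
  have hN' : 2 * (|K| + 7 * |D|) < (n : ℝ) ^ 2 * ε := by
    rw [div_lt_iff₀ hε] at hN
    have hn' : (N : ℝ) ≤ n := by exact_mod_cast hn2.le
    nlinarith [mul_le_mul_of_nonneg_right hn' hε.le,
      mul_le_mul_of_nonneg_right (le_self_pow₀ hn0 two_ne_zero) hε.le]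
  have h6 : 6 * ((j : ℝ) ^ 2 * f P) ≤ (n : ℝ) ^ 2 * ε / 2 := by
    refine le_of_mul_le_mul_left ?_ (show (0 : ℝ) < m by linarith)
    nlinarith [mul_le_mul_of_nonneg_left hm12 (sq_nonneg (n : ℝ))]
  rw [Real.dist_eq, abs_lt, lt_sub_iff_add_lt, sub_lt_iff_lt_add,
    lt_div_iff₀ (by positivity), div_lt_iff₀ (by positivity)]
  constructor <;> nlinarith [le_abs_self K, le_abs_self D, abs_nonneg K, abs_nonneg D]

end FA.PrimitiveEDS

end
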