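import Fermat.Agent.Local.Basic
import Fermat.Agent.EC.MulFormula
import Mathlib.AlgebraicGeometry.EllipticCurve.DivisionPolynomial.Degree
import Mathlib.NumberTheory.Padics.PadicNumbers
import Mathlib.Data.Nat.Factorization.Basic
import Mathlib.RingTheory.UniqueFactorizationDomain.Basic

/-!
# The exponents of the primes in an elliptic divisibility sequence

If `q` divides the denominator `d` of `x(Q)` then in `x(p Q) = Φ_p / ΨSq_p` the numerator is prime
to `q` and the denominator is `d` times `p²` up to a unit, except that for `p = q = 2` it can be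
more when `4 ∥ d`. So the exponents of `q` grow by those of `n²` along the multiples, and a term
without a primitive divisor divides `2 ^ C n²` times the product of the terms of index `n / p`.
-/

set_option autoImplicit false
set_option linter.style.haveILetI false
set_option linter.unusedSectionVars false

noncomputable section

open WeierstrassCurve Polynomial FA.EC FA.Local

namespace FA.PrimitiveEDS

/-- The exponent of `q` in the denominator. -/
def expo (x : ℚ) (q : ℕ) : ℕ := x.den.factorization q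

theorem expo_pos_iff {x : ℚ} {q : ℕ} (hq : q.Prime) : 0 < expo x q ↔ q ∣ x.den :=
  (hq.dvd_iff_one_le_factorization x.den_nz).symm

/-- A fraction whose numerator is prime to `q`. -/
theorem expo_div {q : ℕ} {N D : ℤ} (hN : ¬ (q : ℤ) ∣ N) (hD : D ≠ 0) :
    expo ((N : ℚ) / D) q = D.natAbs.factorization q := by
  obtain ⟨g, hg1, hg2⟩ := Rat.exists_eq_mul_div_num_and_eq_mul_div_den N hD
  have hg0 : g ≠ 0 := fun h => hD (by rw [hg2, h, zero_mul])
  have hqg : ¬ q ∣ g.natAbs := fun h =>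
    hN (hg1 ▸ (Int.natCast_dvd.mpr h).mul_right _)
  set den := ((N : ℚ) / D).den with hden
  have e : D.natAbs = g.natAbs * den := by rw [hg2, Int.natAbs_mul, Int.natAbs_natCast]
  rw [expo, ← hden, e, Nat.factorization_mul (Int.natAbs_ne_zero.mpr hg0) (Rat.den_nz _),
    Finsupp.add_apply, Nat.factorization_eq_zero_of_not_dvd hqg, zero_add]

/-- A homogenised polynomial is its leading term modulo the second variable. -/
theorem exists_homog (f : ℤ[X]) {N : ℕ} (hN : f.natDegree ≤ N) (a : ℤ) {d : ℤ} (hd : d ≠ 0) :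
    ∃ k : ℤ, (f.map (Int.castRingHom ℚ)).eval ((a : ℚ) / d) * (d : ℚ) ^ N =
      ((f.coeff N * a ^ N + d * k : ℤ) : ℚ) := by
  refine ⟨∑ i ∈ Finset.range N, f.coeff i * a ^ i * d ^ (N - i - 1), ?_⟩
  have hd' : (d : ℚ) ≠ 0 := Int.cast_ne_zero.mpr hd
  rw [eval_map, eval₂_eq_sum_range' _ (show f.natDegree < N + 1 by omega), Finset.sum_range_succ,
    add_mul, Finset.sum_mul, Finset.mul_sum]
  push_cast
  rw [add_comm]
  congr 1
  · rw [eq_intCast, div_pow, mul_assoc, div_mul_cancel₀ _ (pow_ne_zero _ hd')]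
  · refine Finset.sum_congr rfl fun i hi => ?_
    have hi' := Finset.mem_range.mp hi
    rw [eq_intCast, div_pow]
    field_simp
    conv_lhs => rw [show N = (N - i - 1) + i + 1 by omega, pow_succ, pow_add]
    ring

/-- An integer congruent to a unit has exponent zero. -/
theorem factorization_add_mul {q : ℕ} (hq : q.Prime) {c d k : ℤ} {j : ℕ} (hc : c ≠ 0)
    (hd : (q : ℤ) ^ (j + 1) ∣ d) (hj : c.natAbs.factorization q = j) :
    c + d * k ≠ 0 ∧ (c + d * k).natAbs.factorization q = j := by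
  obtain ⟨d', rfl⟩ := hd
  have h1 : (q : ℤ) ^ j ∣ c := Int.natCast_pow q j ▸ Int.natCast_dvd.mpr
    (hj ▸ Nat.ordProj_dvd c.natAbs q)
  obtain ⟨c', rfl⟩ := h1
  have hc' : ¬ (q : ℤ) ∣ c' := fun h => by
    have h2 : (q : ℤ) ^ (j + 1) ∣ (q : ℤ) ^ j * c' := by
      rw [pow_succ]; exact mul_dvd_mul_left _ h
    rw [← Int.natCast_pow, Int.natCast_dvd,
      hq.pow_dvd_iff_le_factorization (Int.natAbs_ne_zero.mpr hc), hj] at h2
    omega
  have hne : ¬ (q : ℤ) ∣ c' + q * d' * k := fun h =>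
    hc' ((dvd_add_left (by rw [mul_assoc]; exact dvd_mul_right _ _)).mp h)
  have e : (q : ℤ) ^ j * c' + (q : ℤ) ^ (j + 1) * d' * k = (q : ℤ) ^ j * (c' + q * d' * k) := by
    ring
  have hne0 : c' + q * d' * k ≠ 0 := fun h => hne (h ▸ dvd_zero _)
  rw [e]
  refine ⟨mul_ne_zero (pow_ne_zero _ (Int.natCast_ne_zero.mpr hq.ne_zero)) hne0, ?_⟩
  rw [Int.natAbs_mul, Int.natAbs_pow, Int.natAbs_natCast, Nat.factorization_mul
    (pow_ne_zero _ hq.ne_zero) (Int.natAbs_ne_zero.mpr hne0), Finsupp.add_apply,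
    hq.factorization_pow, Finsupp.single_eq_same,
    Nat.factorization_eq_zero_of_not_dvd (fun h => hne (Int.natCast_dvd.mpr h)), add_zero]

variable (W : WeierstrassCurve ℤ) [(W.map (Int.castRingHom ℚ)).IsElliptic]

theorem intCoeff_padic (q : ℕ) [Fact q.Prime] :
    IntCoeff (Rat.padicValuation q) (W.map (Int.castRingHom ℚ)).toAffine := by
  constructor <;> exact intCast_le_one _

theorem e1_iff {q : ℕ} [Fact q.Prime] {Q : (W.map (Int.castRingHom ℚ)).toAffine.Point}
    (hQ : Q ≠ 0) : E1 (Rat.padicValuation q) (W.map (Int.castRingHom ℚ)).toAffine Q ↔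
      q ∣ (xc Q).den := by
  obtain ⟨x, y, h, rfl⟩ := exists_some_of_ne_zero hQ
  rw [e1_some, xc_some, ← not_le, Rat.padicValuation_le_one_iff, not_not]

/-- A prime in a denominator has exponent at least two. -/
theorem two_le_expo {q : ℕ} (hq : q.Prime) {Q : (W.map (Int.castRingHom ℚ)).toAffine.Point}
    (hd : q ∣ (xc Q).den) : 2 ≤ expo (xc Q) q := by
  haveI := Fact.mk hq
  have hQ : Q ≠ 0 := fun h => hq.not_dvd_one (by subst h; exact hd)
  have h1 := (expo_pos_iff (x := xc Q) hq).mpr hd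
  by_contra h2
  obtain ⟨x, y, h, rfl⟩ := exists_some_of_ne_zero hQ
  rw [xc_some] at hd h1 h2
  have hxv : 1 < Rat.padicValuation q x := (e1_iff W hQ).mpr hd
  obtain ⟨hyx, h3⟩ := large_of_one_lt (intCoeff_padic W q) h.1 hxv
  have hx0 : x ≠ 0 := fun e => by simp [e, hq.ne_one] at hd
  have hy0 : y ≠ 0 := fun e => by
    rw [e, map_zero] at hyx
    exact not_lt_zero hyx
  have hnum : padicValInt q x.num = 0 := padicValInt.eq_zero_of_not_dvd fun hn =>
    hq.not_dvd_one (x.reduced ▸ Nat.dvd_gcd (Int.natCast_dvd.mp hn) hd)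
  simp only [Rat.padicValuation, Valuation.coe_mk, MonoidWithZeroHom.coe_mk, ZeroHom.coe_mk,
    if_neg hx0, if_neg hy0] at h3
  rw [← WithZero.exp_nsmul, ← WithZero.exp_nsmul, WithZero.exp_inj, padicValRat_def q x, hnum,
    nsmul_eq_mul, nsmul_eq_mul] at h3
  rw [expo, Nat.factorization_def _ hq] at h1 h2
  simp only [Nat.cast_ofNat, Nat.cast_zero] at h3
  omega

/-- The multiplication formula with integral polynomials. -/
theorem xc_nsmul_eq {Q : (W.map (Int.castRingHom ℚ)).toAffine.Point} {n : ℕ} (hn : n • Q ≠ 0) :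
    xc (n • Q) = ((W.Φ n).map (Int.castRingHom ℚ)).eval (xc Q) /
      ((W.ΨSq n).map (Int.castRingHom ℚ)).eval (xc Q) := by
  have hQ : Q ≠ 0 := fun h => hn (by rw [h, nsmul_zero])
  obtain ⟨x, y, h, rfl⟩ := exists_some_of_ne_zero hQ
  have e := xc_zsmul h (n : ℤ) (by rwa [natCast_zsmul])
  rw [natCast_zsmul] at e
  rw [e, xc_some, map_Φ, map_ΨSq]

/-- **One prime step.** -/
theorem expo_prime_step {q p : ℕ} (hq : q.Prime) (hp : p.Prime)
    {Q : (W.map (Int.castRingHom ℚ)).toAffine.Point} (hpQ : p • Q ≠ 0) (hd : q ∣ (xc Q).den) :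
    expo (xc Q) q + 2 * p.factorization q ≤ expo (xc (p • Q)) q ∧
      (q ≠ 2 ∨ 3 ≤ expo (xc Q) q ∨ p ≠ 2 →
        expo (xc (p • Q)) q = expo (xc Q) q + 2 * p.factorization q) := by
  haveI := Fact.mk hq
  have he2 := two_le_expo W hq hd
  set x := xc Q with hx
  set a := x.num with ha
  set d : ℤ := (x.den : ℤ) with hdd
  set e := expo x q with he
  have hd0 : d ≠ 0 := Int.natCast_ne_zero.mpr x.den_nz
  have hd0' : (d : ℚ) ≠ 0 := Int.cast_ne_zero.mpr hd0
  have hxe : x = (a : ℚ) / d := by rw [ha, hdd, Int.cast_natCast]; exact x.num_div_den.symm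
  have hqd : (q : ℤ) ∣ d := Int.natCast_dvd_natCast.mpr hd
  have hqa : ¬ (q : ℤ) ∣ a := fun h =>
    hq.not_dvd_one (x.reduced ▸ Nat.dvd_gcd (Int.natCast_dvd.mp h) hd)
  have hde : ∀ j, j ≤ e → (q : ℤ) ^ j ∣ d := fun j hj => by
    rw [hdd, ← Int.natCast_pow, Int.natCast_dvd_natCast]
    exact (pow_dvd_pow q hj).trans (Nat.ordProj_dvd x.den q)
  -- the numerator
  obtain ⟨k, hk⟩ := exists_homog (W.Φ p) (N := p ^ 2)
    (by simp [W.natDegree_Φ (p : ℤ)]) a hd0
  have hc : (W.Φ p).coeff (p ^ 2) = 1 := by simpa using W.coeff_Φ (p : ℤ)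
  rw [hc, one_mul] at hk
  have hN : ¬ (q : ℤ) ∣ a ^ p ^ 2 + d * k := fun h =>
    hqa ((Nat.prime_iff_prime_int.mp hq).dvd_of_dvd_pow ((dvd_add_left (hqd.mul_right k)).mp h))
  -- the denominator
  have hp2 : p ^ 2 - 1 + 1 = p ^ 2 := by have := pow_pos hp.pos 2; omega
  obtain ⟨D, hD, hDlow, hDeq⟩ : ∃ D : ℤ,
      ((W.ΨSq p).map (Int.castRingHom ℚ)).eval ((a : ℚ) / d) * (d : ℚ) ^ (p ^ 2 - 1) = D ∧
      2 * p.factorization q ≤ D.natAbs.factorization q + (if D = 0 then 2 else 0) ∧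
      (q ≠ 2 ∨ 3 ≤ e ∨ p ≠ 2 → D.natAbs.factorization q = 2 * p.factorization q) := by
    rcases hp.eq_two_or_odd' with hp | hodd
    · subst hp
      have hform : ((W.ΨSq (2 : ℕ)).map (Int.castRingHom ℚ)).eval ((a : ℚ) / d) *
          (d : ℚ) ^ (2 ^ 2 - 1) = ((4 * a ^ 3 + W.b₂ * a ^ 2 * d + 2 * W.b₄ * a * d ^ 2 +
            W.b₆ * d ^ 3 : ℤ) : ℚ) := by
        norm_num [ΨSq_two, Ψ₂Sq]
        field_simp
      refine ⟨_, hform, ?_, fun hor => ?_⟩
      · by_cases hq2 : q = 2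
        · subst hq2
          obtain ⟨d', hd'⟩ := hde 2 he2
          set D := 4 * a ^ 3 + W.b₂ * a ^ 2 * d + 2 * W.b₄ * a * d ^ 2 + W.b₆ * d ^ 3 with hDdef
          split_ifs with h0
          · rw [Nat.Prime.factorization_self Nat.prime_two]; omega
          · rw [Nat.Prime.factorization_self Nat.prime_two, mul_one, add_zero,
              ← Nat.prime_two.pow_dvd_iff_le_factorization (Int.natAbs_ne_zero.mpr h0),
              ← Int.natCast_dvd]
            refine ⟨a ^ 3 + W.b₂ * a ^ 2 * d' + 8 * W.b₄ * a * d' ^ 2 + 16 * W.b₆ * d' ^ 3, ?_⟩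
            rw [hDdef, hd']
            push_cast
            ring
        · rw [Nat.factorization_eq_zero_of_not_dvd
            (fun h => hq2 ((Nat.prime_dvd_prime_iff_eq hq Nat.prime_two).mp h))]
          simp
      · have hq2e : q = 2 → 3 ≤ e := fun h => by tauto
        have hj : (4 * a ^ 3).natAbs.factorization q = 2 * (2 : ℕ).factorization q := by
          rw [Int.natAbs_mul, Int.natAbs_pow, Nat.factorization_mul (by norm_num)
            (pow_ne_zero _ (Int.natAbs_ne_zero.mpr fun h => hqa (by rw [h]; exact dvd_zero _))),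
            Nat.factorization_pow, Finsupp.add_apply, Finsupp.smul_apply,
            Nat.factorization_eq_zero_of_not_dvd (fun h => hqa (Int.natCast_dvd.mpr h)),
            show Int.natAbs 4 = 2 ^ 2 from rfl, Nat.factorization_pow, Finsupp.smul_apply]
          simp
        have hd' : (q : ℤ) ^ (2 * (2 : ℕ).factorization q + 1) ∣ d := by
          by_cases hq2 : q = 2
          · subst hq2
            rw [Nat.Prime.factorization_self Nat.prime_two]
            exact hde 3 (hq2e rfl)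
          · rw [Nat.factorization_eq_zero_of_not_dvd
              (fun h => hq2 ((Nat.prime_dvd_prime_iff_eq hq Nat.prime_two).mp h))]
            simpa using hqd
        have h4 : (4 : ℤ) * a ^ 3 ≠ 0 := mul_ne_zero (by norm_num)
          (pow_ne_zero _ fun h => hqa (by rw [h]; exact dvd_zero _))
        have := (factorization_add_mul hq (k := W.b₂ * a ^ 2 + 2 * W.b₄ * a * d + W.b₆ * d ^ 2)
          h4 hd' hj).2
        rwa [show 4 * a ^ 3 + W.b₂ * a ^ 2 * d + 2 * W.b₄ * a * d ^ 2 + W.b₆ * d ^ 3 =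
          4 * a ^ 3 + d * (W.b₂ * a ^ 2 + 2 * W.b₄ * a * d + W.b₆ * d ^ 2) by ring]
    · have hne : ¬ Even p := Nat.not_even_iff_odd.mpr hodd
      set M := (p ^ 2 - 1) / 2 with hM
      have h2M : p ^ 2 - 1 = 2 * M := by
        obtain ⟨r, rfl⟩ := hodd
        rw [hM, show (2 * r + 1) ^ 2 = 2 * (2 * r ^ 2 + 2 * r) + 1 by ring]
        omega
      obtain ⟨k', hk'⟩ := exists_homog (W.preΨ' p) (N := M)
        (by simpa [hne] using W.natDegree_preΨ'_le p) a hd0
      have hc' : (W.preΨ' p).coeff M = (p : ℤ) := by simpa [hne] using W.coeff_preΨ' p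
      rw [hc'] at hk'
      have hpa : (p : ℤ) * a ^ M ≠ 0 := mul_ne_zero (Int.natCast_ne_zero.mpr hp.ne_zero)
        (pow_ne_zero _ fun h => hqa (by rw [h]; exact dvd_zero _))
      have hj : ((p : ℤ) * a ^ M).natAbs.factorization q = p.factorization q := by
        rw [Int.natAbs_mul, Int.natAbs_natCast, Int.natAbs_pow, Nat.factorization_mul hp.ne_zero
          (pow_ne_zero _ (Int.natAbs_ne_zero.mpr fun h => hqa (by rw [h]; exact dvd_zero _))),
          Nat.factorization_pow, Finsupp.add_apply, Finsupp.smul_apply,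
          Nat.factorization_eq_zero_of_not_dvd (fun h => hqa (Int.natCast_dvd.mpr h))]
        simp
      have hle : p.factorization q ≤ 1 := by
        rw [hp.factorization, Finsupp.single_apply]; split_ifs <;> simp
      obtain ⟨h0, hf⟩ := factorization_add_mul hq (k := k') hpa (hde _ (by omega)) hj
      refine ⟨((p : ℤ) * a ^ M + d * k') ^ 2, ?_, ?_, fun _ => ?_⟩
      · rw [Int.cast_pow, ← hk', ΨSq_ofNat, if_neg hne, mul_one, Polynomial.map_pow, eval_pow,
          mul_pow, ← pow_mul, mul_comm M 2, h2M]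
      · rw [if_neg (pow_ne_zero 2 h0), Int.natAbs_pow, Nat.factorization_pow,
          Finsupp.smul_apply, hf, smul_eq_mul, add_zero]
      · rw [Int.natAbs_pow, Nat.factorization_pow, Finsupp.smul_apply, hf, smul_eq_mul]
  have hΨ : ((W.ΨSq p).map (Int.castRingHom ℚ)).eval ((a : ℚ) / d) ≠ 0 := by
    intro h0
    have hQ : Q ≠ 0 := fun h => hpQ (by rw [h, nsmul_zero])
    obtain ⟨u, y, h, rfl⟩ := exists_some_of_ne_zero hQ
    refine hpQ ((nsmul_eq_zero_iff h p).mpr ?_)
    rw [← map_ΨSq, ← hxe] at *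
    exact h0
  have hD0 : D ≠ 0 := by
    intro h
    rw [h, Int.cast_zero] at hD
    exact hΨ ((mul_eq_zero.mp hD).resolve_right (pow_ne_zero _ hd0'))
  have hval : xc (p • Q) = ((a ^ p ^ 2 + d * k : ℤ) : ℚ) / ((d * D : ℤ) : ℚ) := by
    rw [xc_nsmul_eq W hpQ, ← hx, hxe, ← hk, Int.cast_mul, ← hD,
      mul_left_comm, ← pow_succ', hp2, mul_div_mul_right _ _ (pow_ne_zero _ hd0')]
  have hkey : expo (xc (p • Q)) q = e + D.natAbs.factorization q := by
    rw [hval, expo_div hN (mul_ne_zero hd0 hD0), Int.natAbs_mul, Nat.factorization_mul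
      (Int.natAbs_ne_zero.mpr hd0) (Int.natAbs_ne_zero.mpr hD0), Finsupp.add_apply, he, expo,
      hdd, Int.natAbs_natCast]
  rw [if_neg hD0, add_zero] at hDlow
  exact ⟨by omega, fun h => by rw [hkey, hDeq h]⟩

/-- **The exponent along the multiples.** -/
theorem expo_nsmul {q : ℕ} (hq : q.Prime) {k : ℕ} :
    ∀ {Q : (W.map (Int.castRingHom ℚ)).toAffine.Point}, ¬ IsOfFinAddOrder Q → k ≠ 0 →
      q ∣ (xc Q).den →
      expo (xc Q) q + 2 * k.factorization q ≤ expo (xc (k • Q)) q ∧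
        (q ≠ 2 ∨ 3 ≤ expo (xc Q) q →
          expo (xc (k • Q)) q = expo (xc Q) q + 2 * k.factorization q) := by
  induction k using induction_on_primes with
  | zero => intro Q _ h; exact absurd rfl h
  | one => intro Q _ _ _; simp
  | prime_mul p k hp ih =>
    intro Q hQ hk hd
    have hk0 : k ≠ 0 := right_ne_zero_of_mul hk
    obtain ⟨h1, h2⟩ := ih hQ hk0 hd
    have hd' : q ∣ (xc (k • Q)).den :=
      (expo_pos_iff hq).mp (by have := (expo_pos_iff (x := xc Q) hq).mpr hd; omega)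
    have hpk : p • k • Q ≠ 0 := fun h => hQ <| isOfFinAddOrder_iff_nsmul_eq_zero.mpr
      ⟨p * k, Nat.pos_of_ne_zero hk, by rw [mul_nsmul']; exact h⟩
    obtain ⟨h3, h4⟩ := expo_prime_step W hq hp hpk hd'
    rw [mul_nsmul', Nat.factorization_mul hp.ne_zero hk0, Finsupp.add_apply]
    refine ⟨by omega, fun h => ?_⟩
    rw [h4 (h.elim Or.inl fun h => Or.inr (Or.inl (by omega))), h2 h]
    ring

/-- The exponent of `2` is bounded by that of `n²`. -/
theorem expo_two_bounded {P : (W.map (Int.castRingHom ℚ)).toAffine.Point}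
    (hP : ¬ IsOfFinAddOrder P) :
    ∃ C : ℕ, ∀ n, n ≠ 0 → expo (xc (n • P)) 2 ≤ C + 2 * n.factorization 2 := by
  by_cases h : ∃ k, k ≠ 0 ∧ 2 ∣ (xc (k • P)).den
  swap
  · refine ⟨0, fun n hn => ?_⟩
    rw [expo, Nat.factorization_eq_zero_of_not_dvd fun hd => h ⟨n, hn, hd⟩]
    exact Nat.zero_le _
  obtain ⟨k, hk, hd⟩ := h
  have hnt : ∀ {m : ℕ}, m ≠ 0 → ¬ IsOfFinAddOrder (m • P) := fun hm h => by
    obtain ⟨j, hj, hj0⟩ := isOfFinAddOrder_iff_nsmul_eq_zero.mp h
    exact hP (isOfFinAddOrder_iff_nsmul_eq_zero.mpr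
      ⟨j * _, Nat.mul_pos hj (Nat.pos_of_ne_zero hm), by rw [mul_nsmul']; exact hj0⟩)
  have h3 := (expo_nsmul W Nat.prime_two (hnt hk) two_ne_zero hd).1
  rw [Nat.Prime.factorization_self Nat.prime_two, ← mul_nsmul'] at h3
  have he := two_le_expo W Nat.prime_two hd
  have hK : 2 ∣ (xc ((2 * k) • P)).den := (expo_pos_iff Nat.prime_two).mp (by omega)
  refine ⟨expo (xc ((2 * k) • P)) 2, fun n hn => ?_⟩
  by_cases hdn : 2 ∣ (xc (n • P)).den
  swap
  · rw [expo, Nat.factorization_eq_zero_of_not_dvd hdn]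
    exact Nat.zero_le _
  have h4 := (expo_nsmul W Nat.prime_two (hnt hn) (show 2 * k ≠ 0 by omega) hdn).1
  have h5 := (expo_nsmul W Nat.prime_two (hnt (show 2 * k ≠ 0 by omega)) hn hK).2
    (Or.inr (by omega))
  rw [← mul_nsmul'] at h4 h5
  rw [mul_comm (2 * k) n] at h4
  omega

/-- The multiples with `q` in the denominator are closed under greatest common divisors. -/
theorem dvd_den_gcd {q : ℕ} (hq : q.Prime) {P : (W.map (Int.castRingHom ℚ)).toAffine.Point}
    (hP : ¬ IsOfFinAddOrder P) {m n : ℕ} (hm : m ≠ 0) (hn : n ≠ 0)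
    (h1 : q ∣ (xc (m • P)).den) (h2 : q ∣ (xc (n • P)).den) :
    q ∣ (xc (m.gcd n • P)).den := by
  haveI := Fact.mk hq
  have hne : ∀ {k : ℕ}, k ≠ 0 → k • P ≠ 0 := fun hk h => hP <|
    isOfFinAddOrder_iff_nsmul_eq_zero.mpr ⟨_, Nat.pos_of_ne_zero hk, h⟩
  set G := e1Subgroup (intCoeff_padic W q)
  have hm' : m • P ∈ G := (e1_iff W (hne hm)).mpr h1
  have hn' : n • P ∈ G := (e1_iff W (hne hn)).mpr h2
  refine (e1_iff W (hne (Nat.gcd_ne_zero_left hm))).mp ?_
  show m.gcd n • P ∈ G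
  rw [← natCast_zsmul, Nat.gcd_eq_gcd_ab, add_zsmul, mul_comm (m : ℤ), mul_comm (n : ℤ),
    mul_zsmul', mul_zsmul', natCast_zsmul, natCast_zsmul]
  refine G.add_mem ?_ ?_ <;> rw [smul_comm]
  · exact G.zsmul_mem hm' _
  · exact G.zsmul_mem hn' _

/-- **A term without a primitive divisor is small.** -/
theorem den_dvd_of_no_primitive {P : (W.map (Int.castRingHom ℚ)).toAffine.Point}
    (hP : ¬ IsOfFinAddOrder P) :
    ∃ C : ℕ, ∀ n, n ≠ 0 → (∀ q : ℕ, q.Prime → q ∣ (xc (n • P)).den →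
        ∃ m, 0 < m ∧ m < n ∧ q ∣ (xc (m • P)).den) →
      (xc (n • P)).den ∣ 2 ^ C * n ^ 2 * ∏ p ∈ n.primeFactors, (xc ((n / p) • P)).den := by
  obtain ⟨C, hC⟩ := expo_two_bounded W hP
  refine ⟨C, fun n hn hnp => ?_⟩
  have hprod : ∏ p ∈ n.primeFactors, (xc ((n / p) • P)).den ≠ 0 :=
    Finset.prod_ne_zero_iff.mpr fun p _ => Rat.den_nz _
  have hR : 2 ^ C * n ^ 2 * ∏ p ∈ n.primeFactors, (xc ((n / p) • P)).den ≠ 0 :=
    mul_ne_zero (mul_ne_zero (pow_ne_zero _ two_ne_zero) (pow_ne_zero _ hn)) hprod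
  rw [← Nat.factorization_prime_le_iff_dvd (Rat.den_nz _) hR]
  intro q hq
  rw [Nat.factorization_mul (mul_ne_zero (pow_ne_zero _ two_ne_zero) (pow_ne_zero _ hn)) hprod,
    Nat.factorization_mul (pow_ne_zero _ two_ne_zero) (pow_ne_zero _ hn),
    Nat.factorization_prod fun p _ => Rat.den_nz _, Nat.factorization_pow, Nat.factorization_pow]
  simp only [Finsupp.add_apply, Finsupp.smul_apply, smul_eq_mul, Finsupp.finsetSum_apply]
  change expo _ q ≤ C * (2 : ℕ).factorization q + 2 * n.factorization q +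
    ∑ p ∈ n.primeFactors, expo _ q
  by_cases hq2 : q = 2
  · subst hq2
    rw [Nat.Prime.factorization_self Nat.prime_two]
    have := hC n hn
    omega
  by_cases hd : q ∣ (xc (n • P)).den
  swap
  · rw [expo, Nat.factorization_eq_zero_of_not_dvd hd]
    exact Nat.zero_le _
  obtain ⟨m, hm0, hmn, hm⟩ := hnp q hq hd
  have hg := dvd_den_gcd W hq hP hm0.ne' hn hm hd
  set g := m.gcd n with hgdef
  have hgn : g ∣ n := Nat.gcd_dvd_right m n
  have hg0 : g ≠ 0 := Nat.gcd_ne_zero_left hm0.ne'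
  have hlt : g < n := lt_of_le_of_lt (Nat.gcd_le_left n hm0) hmn
  have hn1 : n / g ≠ 1 := fun h => by
    have := Nat.div_mul_cancel hgn
    rw [h, one_mul] at this
    omega
  obtain ⟨p, hp, hpd⟩ := Nat.exists_prime_and_dvd hn1
  obtain ⟨r, hr⟩ := hpd
  have hn_eq : n = p * (g * r) := by
    rw [← Nat.div_mul_cancel hgn, hr]; ring
  have hpn : p ∈ n.primeFactors := Nat.mem_primeFactors.mpr ⟨hp, ⟨_, hn_eq⟩, hn⟩
  have hgr : n / p = g * r := by rw [hn_eq, Nat.mul_div_cancel_left _ hp.pos]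
  have hgr0 : g * r ≠ 0 := fun h => hn (by rw [hn_eq, h, mul_zero])
  have hnt : ∀ {j : ℕ}, j ≠ 0 → ¬ IsOfFinAddOrder (j • P) := fun hj h => by
    obtain ⟨i, hi, hi0⟩ := isOfFinAddOrder_iff_nsmul_eq_zero.mp h
    exact hP (isOfFinAddOrder_iff_nsmul_eq_zero.mpr
      ⟨i * _, Nat.mul_pos hi (Nat.pos_of_ne_zero hj), by rw [mul_nsmul']; exact hi0⟩)
  have h1 := (expo_nsmul W hq (hnt hg0) (right_ne_zero_of_mul hgr0) hg).1
  have hgrd : q ∣ (xc ((g * r) • P)).den := (expo_pos_iff hq).mp (by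
    rw [mul_comm, mul_nsmul']
    have := (expo_pos_iff (x := xc (g • P)) hq).mpr hg
    omega)
  have h2 := (expo_nsmul W hq (hnt hgr0) hp.ne_zero hgrd).2 (Or.inl hq2)
  rw [← mul_nsmul', ← hn_eq, ← hgr] at h2
  have h3 := Finset.single_le_sum (f := fun p => expo (xc ((n / p) • P)) q)
    (fun _ _ => Nat.zero_le _) hpn
  have h4 : p.factorization q ≤ n.factorization q :=
    (Nat.factorization_le_iff_dvd hp.ne_zero hn).mpr ⟨_, hn_eq⟩ q
  omega

end FA.PrimitiveEDS

end
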