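import Fermat.Agent.PrimitiveEDS.Archimedean
import Fermat.Agent.Root.SummaryMordellWeilGeneral
import Mathlib.Analysis.Normed.Group.Bounded

/-!
# Rational points near an algebraic target

If `u = x(A + R)` is near an algebraic `α` then `z = x(A)` is near `x(T + R)` or `x(T - R)`, where
`x(T) = α`, because the relation between `u` and `z` is a symmetrical biquadratic form. For
`A = m Q` Roth's theorem bounds `|u - α|` below and `|u|` above by a power of the denominator of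
`x(Q)`, whose height is about `1 / m²` of that of `u`.
-/

set_option autoImplicit false
set_option linter.style.haveILetI false
set_option linter.unusedSectionVars false

noncomputable section

open WeierstrassCurve Polynomial FA.EC Filter Topology

namespace FA.PrimitiveEDS

variable (E : WeierstrassCurve ℚ) [E.IsElliptic]

/-- Finitely many points over finitely many abscissae. -/
theorem finite_xc_mem {S : Set ℂ} (hS : S.Finite) :
    {P : E.toAffine.Point | P = 0 ∨ ((xc P : ℚ) : ℂ) ∈ S}.Finite := by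
  classical
  refine ((Set.finite_singleton (0 : E.toAffine.Point)).union (hS.biUnion
    (t := fun r => {P : E.toAffine.Point | P ≠ 0 ∧ ((xc P : ℚ) : ℂ) = r})
    fun r _ => ?_)).subset fun P hP => ?_
  · by_cases h : ∃ P : E.toAffine.Point, P ≠ 0 ∧ ((xc P : ℚ) : ℂ) = r
    · obtain ⟨P₀, h0, hr⟩ := h
      refine ((Set.finite_singleton (-P₀)).insert P₀).subset fun P ⟨hP0, hPr⟩ => ?_
      rcases eq_or_eq_neg_of_xc_eq hP0 h0 (Rat.cast_injective (hPr.trans hr.symm)) with e | e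
      · exact Or.inl e
      · exact Or.inr e
    · exact Set.finite_empty.subset fun P hP => h ⟨P, hP⟩
  · rcases eq_or_ne P 0 with h | h
    · exact Or.inl h
    · exact Or.inr (Set.mem_biUnion (hP.resolve_left h) ⟨h, rfl⟩)

/-- `R` is in general position for the target `α`. -/
def GoodFor (α : ℂ) (R : E.toAffine.Point) : Prop :=
  R ≠ 0 ∧ E.Ψ₂Sq.eval (xc R) ≠ 0 ∧ ((xc R : ℚ) : ℂ) ≠ α ∧
    ((E.map (algebraMap ℚ ℂ)).Φ 2).eval ((xc R : ℚ) : ℂ) *
        (E.map (algebraMap ℚ ℂ)).Ψ₂Sq.eval α ≠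
      ((E.map (algebraMap ℚ ℂ)).Φ 2).eval α *
        (E.map (algebraMap ℚ ℂ)).Ψ₂Sq.eval ((xc R : ℚ) : ℂ)

/-- Almost every point is in general position. -/
theorem finite_not_goodFor (α : ℂ) : {R : E.toAffine.Point | ¬ GoodFor E α R}.Finite := by
  classical
  set V := E.map (algebraMap ℚ ℂ) with hV
  set L := C (V.Ψ₂Sq.eval α) * V.Φ 2 - C ((V.Φ 2).eval α) * V.Ψ₂Sq with hL
  have hΨ : V.Ψ₂Sq ≠ 0 := V.Ψ₂Sq_ne_zero (by norm_num)
  have hL0 : L ≠ 0 := by
    by_cases ha : V.Ψ₂Sq.eval α = 0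
    · have hb : (V.Φ 2).eval α ≠ 0 := fun hb => numDen_ne_zero V 2 α (by
        funext i
        fin_cases i
        · exact hb
        · simpa [numDen, ΨSq_two] using ha)
      rw [hL, ha, map_zero, zero_mul, zero_sub, neg_ne_zero]
      exact mul_ne_zero (C_ne_zero.mpr hb) hΨ
    · intro h
      have := congrArg (fun q : ℂ[X] => q.coeff 4) h
      have h1 : (V.Φ 2).coeff 4 = 1 := V.coeff_Φ (2 : ℤ)
      have h2 : V.Ψ₂Sq.coeff 4 = 0 :=
        coeff_eq_zero_of_natDegree_lt (lt_of_le_of_lt V.natDegree_Ψ₂Sq_le (by norm_num))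
      simp only [hL, coeff_sub, coeff_C_mul, h1, h2, coeff_zero, mul_one, mul_zero, sub_zero]
        at this
      exact ha this
  set Bp := V.Ψ₂Sq * (X - C α) * L with hBp
  have hBp0 : Bp ≠ 0 := mul_ne_zero (mul_ne_zero hΨ (X_sub_C_ne_zero α)) hL0
  refine (finite_xc_mem E Bp.roots.toFinset.finite_toSet).subset fun R hR => ?_
  by_contra h
  simp only [Set.mem_ofPred_eq, not_or, Finset.mem_coe, Multiset.mem_toFinset] at h
  obtain ⟨h0, h⟩ := h
  have hev : Bp.eval ((xc R : ℚ) : ℂ) ≠ 0 := fun e => h ((mem_roots hBp0).mpr e)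
  simp only [hBp, hL, eval_mul, eval_sub, eval_X, eval_C, ne_eq, mul_eq_zero, not_or] at hev
  obtain ⟨⟨hs2, hsα⟩, hL'⟩ := hev
  refine hR ⟨h0, fun he => hs2 ?_, fun he => hsα (sub_eq_zero.mpr he), fun he => hL' ?_⟩
  · rw [hV, map_Ψ₂Sq, show ((xc R : ℚ) : ℂ) = algebraMap ℚ ℂ (xc R) from (eq_ratCast _ _).symm,
      eval_map_apply, he, map_zero]
  · rw [mul_comm, he, sub_self]

/-- **Upper and lower bound at the target** for the points `m Q + R`. -/
theorem exists_target {α : ℂ} (hα : IsAlgebraic ℚ α) {R : E.toAffine.Point} (hR : GoodFor E α R)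
    {m : ℕ} (hm : m ≠ 0) :
    ∃ K : ℝ, 1 ≤ K ∧ ∃ Z : Set E.toAffine.Point, Z.Finite ∧ ∀ Q, m • Q + R ∉ Z → m • Q ≠ 0 ∧
      max |((xc (m • Q + R) : ℚ) : ℝ)| 1 ≤ K * ((xc Q).den : ℝ) ^ 6 ∧
      1 ≤ K * ((xc Q).den : ℝ) ^ 6 * ‖((xc (m • Q + R) : ℚ) : ℂ) - α‖ := by
  classical
  obtain ⟨hR0, hR2, hRα, hR4⟩ := hR
  have hRR : R + R ≠ 0 := fun h => hR2 (by
    rw [← pc_sq hR0, pc_eq_zero_of_add_self h, zero_pow two_ne_zero])
  obtain ⟨K₁, hK₁, hupper⟩ := exists_xc_add_le E hR0 hRR hm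
  set s : ℂ := ((xc R : ℚ) : ℂ) with hs
  obtain ⟨Y, hY⟩ := exists_nonsingular (E.map (algebraMap ℚ ℂ)) α
  obtain ⟨Y', hY'⟩ := exists_nonsingular (E.map (algebraMap ℚ ℂ)) s
  have hT0 := Affine.Point.some_ne_zero hY
  have hS0 := Affine.Point.some_ne_zero hY'
  have hne : xc (Affine.Point.some α Y hY) ≠ xc (Affine.Point.some s Y' hY') := by
    rw [xc_some, xc_some]; exact fun e => hRα e.symm
  -- twice the parts are not zero
  have key : ∀ B, (B = Affine.Point.some s Y' hY' ∨ B = -Affine.Point.some s Y' hY') →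
      (Affine.Point.some α Y hY + B) + (Affine.Point.some α Y hY + B) ≠ 0 := by
    intro B hB h
    have hψ : (E.map (algebraMap ℚ ℂ)).Ψ₂Sq.eval s ≠ 0 := by
      rw [map_Ψ₂Sq, hs, show ((xc R : ℚ) : ℂ) = algebraMap ℚ ℂ (xc R) from (eq_ratCast _ _).symm,
        eval_map_apply]
      simpa using hR2
    have hSS : Affine.Point.some s Y' hY' + Affine.Point.some s Y' hY' ≠ 0 := fun e => hψ (by
      have := pc_sq hS0
      rwa [pc_eq_zero_of_add_self e, zero_pow two_ne_zero, xc_some, eq_comm] at this)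
    have hBB : B + B ≠ 0 := by
      rcases hB with rfl | rfl
      · exact hSS
      · rwa [← neg_add, neg_ne_zero]
    have hTT : Affine.Point.some α Y hY + Affine.Point.some α Y hY = -(B + B) := by
      rw [eq_neg_iff_add_eq_zero, add_add_add_comm]; exact h
    have hx2 : xc ((2 : ℤ) • Affine.Point.some α Y hY) =
        xc ((2 : ℤ) • Affine.Point.some s Y' hY') := by
      rw [two_zsmul, two_zsmul, hTT, xc_neg]
      rcases hB with rfl | rfl
      · rfl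
      · rw [← neg_add, xc_neg]
    have h2T : (2 : ℤ) • Affine.Point.some α Y hY ≠ 0 := by
      rw [two_zsmul, hTT, neg_ne_zero]; exact hBB
    have hψT : (E.map (algebraMap ℚ ℂ)).Ψ₂Sq.eval α ≠ 0 := fun e =>
      h2T ((zsmul_eq_zero_iff hY 2).mpr (by rw [ΨSq_two]; exact e))
    rw [xc_zsmul hY 2 h2T, xc_zsmul hY' 2 (by rw [two_zsmul]; exact hSS), ΨSq_two,
      div_eq_div_iff hψT hψ] at hx2
    exact hR4 hx2.symm
  obtain ⟨hp1, hp2, -⟩ := xc_add_eq hT0 hS0 hne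
  obtain ⟨hsum, hprod⟩ := xc_add_sub_formula hT0 hS0 hne
  simp only [xc_some, map_b₂, map_b₄, map_b₆, map_b₈, eq_ratCast] at hsum hprod
  set β₁ := xc (Affine.Point.some α Y hY + Affine.Point.some s Y' hY') with hβ₁
  set β₂ := xc (Affine.Point.some α Y hY - Affine.Point.some s Y' hY') with hβ₂
  have hrat : ∀ q : ℚ, IsAlgebraic ℚ (q : ℂ) := fun q => by
    rw [← eq_ratCast (algebraMap ℚ ℂ)]; exact isAlgebraic_algebraMap q
  have hnum : ∀ n : ℕ, IsAlgebraic ℚ (n : ℂ) := fun n => by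
    have := hrat (n : ℚ); rwa [Rat.cast_natCast] at this
  set d₂ := (α - s) ^ 2 with hd₂
  set S₂ := 2 * α * s * (α + s) + (E.b₂ : ℂ) * (α * s) + (E.b₄ : ℂ) * (α + s) + (E.b₆ : ℂ) with hS₂
  set P₂ := (α * s) ^ 2 - (E.b₄ : ℂ) * (α * s) - (E.b₆ : ℂ) * (α + s) - (E.b₈ : ℂ) with hP₂
  have hd0 : d₂ ≠ 0 := pow_ne_zero 2 (sub_ne_zero.mpr fun e => hRα e.symm)
  have hαs : IsAlgebraic ℚ (α * s) := hα.mul (hrat _)
  have hαs' : IsAlgebraic ℚ (α + s) := hα.add (hrat _)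
  have halgq : ∀ z : ℂ, d₂ * z ^ 2 - S₂ * z + P₂ = 0 → IsAlgebraic ℚ z := fun z hz => by
    refine isAlgebraic_root (G := C d₂ * X ^ 2 - C S₂ * X + C P₂) (fun i => ?_) (fun h => hd0 ?_)
      (by simpa using hz)
    · have a0 : IsAlgebraic ℚ (0 : ℂ) := isAlgebraic_zero
      have a2 : IsAlgebraic ℚ d₂ := ((hα.sub (hrat _)).pow 2)
      have aS : IsAlgebraic ℚ S₂ :=
        (((((hnum 2).mul hα).mul (hrat _)).mul hαs').add ((hrat _).mul hαs)).add
          ((hrat _).mul hαs') |>.add (hrat _)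
      have aP : IsAlgebraic ℚ P₂ :=
        (((hαs.pow 2).sub ((hrat _).mul hαs)).sub ((hrat _).mul hαs')).sub (hrat _)
      rcases i with _ | _ | _ | i <;> simp [coeff_X_pow, coeff_C, coeff_X]
      · exact aP
      · exact aS.neg
      · exact a2
      · exact a0
    · have := congrArg (fun q : ℂ[X] => q.coeff 2) h
      simpa [coeff_C, coeff_X] using this
  have hroot₁ : d₂ * β₁ ^ 2 - S₂ * β₁ + P₂ = 0 := by
    linear_combination β₁ * hsum - hprod
  have hroot₂ : d₂ * β₂ ^ 2 - S₂ * β₂ + P₂ = 0 := by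
    linear_combination β₂ * hsum - hprod
  obtain ⟨c₁, hc₁, hlow₁⟩ := exists_sub_lower_complex E hp1
    (key _ (Or.inl rfl)) (halgq _ hroot₁) hm
  obtain ⟨c₂, hc₂, hlow₂⟩ := exists_sub_lower_complex E hp2
    (by rw [sub_eq_add_neg]; exact key _ (Or.inr rfl)) (halgq _ hroot₂) hm
  -- the constants
  set δ₀ := min 1 (‖α - s‖ / 2) with hδ₀
  have hδ₀0 : 0 < δ₀ := lt_min one_pos (by
    have : 0 < ‖α - s‖ := norm_pos_iff.mpr (sub_ne_zero.mpr fun e => hRα e.symm)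
    linarith)
  obtain ⟨M₁, hM₁⟩ := (isCompact_closedBall (0 : ℂ) (‖α‖ + 1)).exists_bound_of_continuousOn
    (f := fun u : ℂ => ‖2 * u * s * (u + s) + (E.b₂ : ℂ) * (u * s) + (E.b₄ : ℂ) * (u + s) +
        (E.b₆ : ℂ)‖ + ‖(u * s) ^ 2 - (E.b₄ : ℂ) * (u * s) - (E.b₆ : ℂ) * (u + s) - (E.b₈ : ℂ)‖)
    (by fun_prop)
  set Zb := max 1 (M₁ / δ₀ ^ 2 + 1) with hZb
  obtain ⟨M₂, hM₂⟩ := ((isCompact_closedBall (0 : ℂ) (‖α‖ + 1)).prod
    (isCompact_closedBall (0 : ℂ) Zb)).exists_bound_of_continuousOn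
    (f := fun p : ℂ × ℂ => (α + p.1 - 2 * s) * p.2 ^ 2 -
      (2 * s * (α + p.1) + 2 * s ^ 2 + (E.b₂ : ℂ) * s + (E.b₄ : ℂ)) * p.2 +
      (s ^ 2 * (α + p.1) - (E.b₄ : ℂ) * s - (E.b₆ : ℂ))) (by fun_prop)
  set c := ‖d₂‖ * c₁ * c₂ with hc
  have hc0 : 0 < c := mul_pos (mul_pos (norm_pos_iff.mpr hd0) hc₁) hc₂
  set K := max K₁ (max δ₀⁻¹ (M₂ / c)) with hK
  refine ⟨K, hK₁.trans (le_max_left _ _), (fun A => A + R) ''
      {A | A = 0 ∨ ((xc A : ℚ) : ℂ) ∈ ({s, β₁, β₂} : Set ℂ)},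
    (finite_xc_mem E (Set.toFinite _)).image _, fun Q hQ => ?_⟩
  have hA : ¬ (m • Q = 0 ∨ ((xc (m • Q) : ℚ) : ℂ) ∈ ({s, β₁, β₂} : Set ℂ)) := fun h =>
    hQ ⟨m • Q, h, rfl⟩
  simp only [Set.mem_insert_iff, Set.mem_singleton_iff, not_or] at hA
  obtain ⟨hA0, hAs, hA1, hA2⟩ := hA
  have hxs : xc (m • Q) ≠ xc R := fun e => hAs (by rw [hs, e])
  set d : ℝ := ((xc Q).den : ℝ) with hd
  have hd1 : 1 ≤ d := by rw [hd]; exact_mod_cast (xc Q).pos
  have hd6 : (1 : ℝ) ≤ d ^ 6 := one_le_pow₀ hd1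
  have hd6' : (0 : ℝ) ≤ d ^ 6 := le_trans zero_le_one hd6
  refine ⟨hA0, (hupper Q hA0 hxs).trans
    (mul_le_mul_of_nonneg_right (le_max_left _ _) hd6'), ?_⟩
  set u : ℂ := ((xc (m • Q + R) : ℚ) : ℂ) with hu
  set z : ℂ := ((xc (m • Q) : ℚ) : ℂ) with hz
  rcases le_or_gt δ₀ ‖u - α‖ with hfar | hnear
  · calc (1 : ℝ) = δ₀⁻¹ * 1 * δ₀ := by field_simp
      _ ≤ K * d ^ 6 * ‖u - α‖ := by
        refine mul_le_mul (mul_le_mul ((le_max_left _ _).trans (le_max_right _ _)) hd6 zero_le_one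
          (le_trans (inv_nonneg.mpr hδ₀0.le) ((le_max_left _ _).trans (le_max_right _ _))))
          hfar hδ₀0.le (mul_nonneg (le_trans zero_le_one (hK₁.trans (le_max_left _ _))) hd6')
  obtain ⟨hs', hp'⟩ := xc_add_sub_formula hA0 hR0 hxs
  have hs'' := congrArg (fun q : ℚ => (q : ℂ)) hs'
  have hp'' := congrArg (fun q : ℚ => (q : ℂ)) hp'
  push_cast at hs'' hp''
  rw [← hz, ← hu, ← hs] at hs'' hp''
  have hFu : (u - s) ^ 2 * z ^ 2 -
      (2 * u * s * (u + s) + (E.b₂ : ℂ) * (u * s) + (E.b₄ : ℂ) * (u + s) + (E.b₆ : ℂ)) * z +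
      ((u * s) ^ 2 - (E.b₄ : ℂ) * (u * s) - (E.b₆ : ℂ) * (u + s) - (E.b₈ : ℂ)) = 0 := by
    linear_combination u * hs'' - hp''
  have hun : ‖u‖ ≤ ‖α‖ + 1 := by
    have h1 := norm_le_norm_add_norm_sub' u α
    linarith [min_le_left 1 (‖α - s‖ / 2)]
  have hus : δ₀ ≤ ‖u - s‖ := by
    have h1 := norm_sub_le_norm_sub_add_norm_sub α u s
    rw [norm_sub_rev α u] at h1
    linarith [min_le_right 1 (‖α - s‖ / 2)]
  have hub : u ∈ Metric.closedBall (0 : ℂ) (‖α‖ + 1) := mem_closedBall_zero_iff.mpr hun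
  have hzb : ‖z‖ ≤ Zb := by
    rcases le_or_gt ‖z‖ 1 with h1 | h1
    · exact h1.trans (le_max_left _ _)
    refine le_trans ?_ (le_max_right _ _)
    have hM := (le_abs_self _).trans (hM₁ u hub)
    set Su := 2 * u * s * (u + s) + (E.b₂ : ℂ) * (u * s) + (E.b₄ : ℂ) * (u + s) + (E.b₆ : ℂ)
    set Pu := (u * s) ^ 2 - (E.b₄ : ℂ) * (u * s) - (E.b₆ : ℂ) * (u + s) - (E.b₈ : ℂ)
    have h2 : ‖u - s‖ ^ 2 * ‖z‖ ^ 2 ≤ ‖Su‖ * ‖z‖ + ‖Pu‖ := by
      rw [← norm_pow, ← norm_pow, ← norm_mul, ← norm_mul,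
        show (u - s) ^ 2 * z ^ 2 = Su * z - Pu by linear_combination hFu]
      exact norm_sub_le _ _
    have h3 : δ₀ ^ 2 * ‖z‖ ^ 2 ≤ M₁ * ‖z‖ := by
      refine (mul_le_mul_of_nonneg_right (pow_le_pow_left₀ hδ₀0.le hus 2) (sq_nonneg _)).trans
        (h2.trans ?_)
      have h5 := mul_le_mul_of_nonneg_left h1.le (norm_nonneg Pu)
      have h6 := mul_le_mul_of_nonneg_right hM (norm_nonneg z)
      rw [add_mul] at h6
      linarith
    rw [sq ‖z‖, ← mul_assoc] at h3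
    have h4 := le_of_mul_le_mul_right h3 (by linarith)
    have : ‖z‖ ≤ M₁ / δ₀ ^ 2 := by
      rw [le_div_iff₀ (pow_pos hδ₀0 2)]; linarith
    linarith
  have hD := hM₂ (u, z) ⟨hub, mem_closedBall_zero_iff.mpr hzb⟩
  set Dd := (α + u - 2 * s) * z ^ 2 -
      (2 * s * (α + u) + 2 * s ^ 2 + (E.b₂ : ℂ) * s + (E.b₄ : ℂ)) * z +
      (s ^ 2 * (α + u) - (E.b₄ : ℂ) * s - (E.b₆ : ℂ)) with hDd
  have hfac : d₂ * (z - β₁) * (z - β₂) = (α - u) * Dd := by
    linear_combination hprod - z * hsum + hFu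
  have hn := congrArg norm hfac
  rw [norm_mul, norm_mul, norm_mul, norm_sub_rev α u] at hn
  have l1 := hlow₁ Q hA0 hA1
  have l2 := hlow₂ Q hA0 hA2
  have hlow : c * (d ^ 6)⁻¹ ≤ ‖u - α‖ * M₂ := by
    have h1 : c * (d ^ 6)⁻¹ = ‖d₂‖ * (c₁ * (d ^ 3)⁻¹) * (c₂ * (d ^ 3)⁻¹) := by
      rw [hc]
      field_simp
    rw [h1]
    exact le_trans (mul_le_mul (mul_le_mul_of_nonneg_left l1 (norm_nonneg _)) l2 (by positivity)
      (by positivity)) (hn.le.trans (mul_le_mul_of_nonneg_left hD (norm_nonneg _)))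
  rw [← div_eq_mul_inv, div_le_iff₀ (by linarith)] at hlow
  refine le_trans ?_ (mul_le_mul_of_nonneg_right (mul_le_mul_of_nonneg_right
    ((le_max_right _ _).trans (le_max_right _ _)) hd6') (norm_nonneg _))
  rw [div_mul_eq_mul_div, div_mul_eq_mul_div, le_div_iff₀ hc0, one_mul]
  linarith

/-- **Siegel's bound for all points**: near an algebraic target and at infinity the points are at
most `12 / m²` of their height, with finitely many exceptions. -/
theorem exists_log_bounds {f : E.toAffine.Point → ℝ}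
    (hf : ∃ C, ∀ P, |f P - Height.logHeight P.xRep| ≤ C) (h2 : ∀ P, f (2 • P) = 4 * f P)
    {α : ℂ} (hα : IsAlgebraic ℚ α) {m : ℕ} (hm : m ≠ 0) :
    ∃ (C : ℝ) (Z : Set E.toAffine.Point), Z.Finite ∧ ∀ P, P ∉ Z → P ≠ 0 ∧
      ((xc P : ℚ) : ℂ) ≠ α ∧
      Real.log (max |((xc P : ℚ) : ℝ)| 1) ≤ 12 * f P / (m : ℝ) ^ 2 + C ∧
      -Real.log ‖((xc P : ℚ) : ℂ) - α‖ ≤ 12 * f P / (m : ℝ) ^ 2 + C := by
  classical
  obtain ⟨hpar, hsq, hnn, hz0, hfin⟩ := FA.Summary.canonicalHeight_properties E hf h2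
  obtain ⟨D, hD⟩ := hf
  by_cases htor : ∀ P : E.toAffine.Point, IsOfFinAddOrder P
  · exact ⟨0, {P | f P ≤ 0}, hfin 0, fun P hP => absurd ((hz0 P).mpr (htor P)).le hP⟩
  push Not at htor
  obtain ⟨P₀, hP₀⟩ := htor
  haveI := FA.Summary.mordellWeil E
  haveI : Module.Finite ℤ E.toAffine.Point := Module.Finite.iff_addGroup_fg.mpr inferInstance
  obtain ⟨n, g, hg⟩ := Module.Finite.exists_fin (R := ℤ) (M := E.toAffine.Point)
  -- one point in general position in each class modulo `m`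
  have hgood : ∀ k : Fin n → Fin m, ∃ t : ℤ,
      GoodFor E α ((∑ i, ((k i : ℕ) : ℤ) • g i) + (m : ℤ) • (t • P₀)) := fun k => by
    by_contra hno
    push Not at hno
    refine Set.infinite_range_of_injective (f := fun t : ℤ =>
      (∑ i, ((k i : ℕ) : ℤ) • g i) + (m : ℤ) • (t • P₀)) (fun t t' h => ?_)
      ((finite_not_goodFor E α).subset (Set.range_subset_iff.mpr hno))
    have h' := add_left_cancel h
    simp only [← mul_zsmul'] at h'
    have := injective_zsmul_iff_not_isOfFinAddOrder.mpr hP₀ h'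
    simpa [hm] using this
  choose t ht using hgood
  choose K hK1 Z hZ hbd using fun k => exists_target E hα (ht k) hm
  set Rk := fun k : Fin n → Fin m => (∑ i, ((k i : ℕ) : ℤ) • g i) + (m : ℤ) • (t k • P₀) with hRk
  have hm0 : (0 : ℝ) < (m : ℝ) ^ 2 := pow_pos (Nat.cast_pos.mpr (Nat.pos_of_ne_zero hm)) 2
  refine ⟨∑ k, (Real.log (K k) + 12 * f (Rk k) / (m : ℝ) ^ 2) + 6 * |D|,
    {0} ∪ (⋃ k, Z k) ∪ {P | P = 0 ∨ ((xc P : ℚ) : ℂ) ∈ ({α} : Set ℂ)},
    ((Set.finite_singleton _).union (Set.finite_iUnion hZ)).union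
      (finite_xc_mem E (Set.finite_singleton α)), fun P hP => ?_⟩
  simp only [Set.mem_union, Set.mem_singleton_iff, Set.mem_iUnion, Set.mem_ofPred_eq, not_or,
    not_exists] at hP
  obtain ⟨⟨hP0, hPZ⟩, -, hPα⟩ := hP
  obtain ⟨c, hc⟩ := (Submodule.mem_span_range_iff_exists_fun ℤ).mp
    (hg ▸ Submodule.mem_top : P ∈ Submodule.span ℤ (Set.range g))
  have hmz : (0 : ℤ) < m := by exact_mod_cast Nat.pos_of_ne_zero hm
  set k : Fin n → Fin m := fun i => ⟨(c i % m).toNat, by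
    have h1 := Int.emod_lt_of_pos (c i) hmz
    have h2 := Int.emod_nonneg (c i) hmz.ne'
    omega⟩ with hk
  set Q := (∑ i, (c i / m) • g i) - t k • P₀ with hQ
  have hPe : P = m • Q + Rk k := by
    rw [← natCast_zsmul, hQ, zsmul_sub, hRk, Finset.smul_sum]
    simp only
    rw [sub_add, sub_add_eq_sub_sub, sub_sub_cancel_left, sub_neg_eq_add, ← Finset.sum_add_distrib,
      ← hc]
    refine Finset.sum_congr rfl fun i _ => ?_
    rw [← mul_zsmul', ← add_zsmul]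
    congr 1
    rw [hk]
    simp only [Int.toNat_of_nonneg (Int.emod_nonneg (c i) hmz.ne')]
    linarith [Int.emod_def (c i) (m : ℤ), mul_comm (m : ℤ) (c i / m)]
  obtain ⟨hQ0, hup, hlo⟩ := hbd k Q (hPe ▸ hPZ k)
  rw [← hPe] at hup hlo
  refine ⟨hP0, hPα, ?_⟩
  have hQne : Q ≠ 0 := fun h => hQ0 (by rw [h, nsmul_zero])
  have hden : Real.log ((xc Q).den) ≤ f Q + |D| := by
    have h := (abs_le.mp (hD Q)).1
    rw [logHeight_xRep E hQne] at h
    have h0 := Real.log_nonneg (le_max_right |((xc Q : ℚ) : ℝ)| 1)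
    linarith [le_abs_self D]
  have hfQ : (m : ℝ) ^ 2 * f Q ≤ 2 * f P + 2 * f (Rk k) := by
    have h1 := hpar P (Rk k)
    have h2 : P - Rk k = (m : ℤ) • Q := by rw [hPe, natCast_zsmul, add_sub_cancel_right]
    rw [h2, hsq, Int.cast_natCast] at h1
    linarith [hnn (P + Rk k)]
  have hfQ' : 6 * f Q ≤ 12 * f P / (m : ℝ) ^ 2 + 12 * f (Rk k) / (m : ℝ) ^ 2 := by
    rw [← add_div, le_div_iff₀ hm0]
    linarith
  have hsum := Finset.single_le_sum (f := fun k => Real.log (K k) + 12 * f (Rk k) / (m : ℝ) ^ 2)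
    (fun k _ => add_nonneg (Real.log_nonneg (hK1 k))
      (div_nonneg (mul_nonneg (by norm_num) (hnn _)) hm0.le)) (Finset.mem_univ k)
  have hK0 : 0 < K k := lt_of_lt_of_le one_pos (hK1 k)
  have hd0 : (0 : ℝ) < ((xc Q).den : ℝ) ^ 6 := pow_pos (Nat.cast_pos.mpr (Rat.pos _)) 6
  have hlogKd : Real.log (K k * ((xc Q).den : ℝ) ^ 6) =
      Real.log (K k) + 6 * Real.log ((xc Q).den) := by
    rw [Real.log_mul hK0.ne' hd0.ne', Real.log_pow]
    norm_num
  constructor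
  · have h := Real.log_le_log (lt_of_lt_of_le one_pos (le_max_right _ _)) hup
    rw [hlogKd] at h
    linarith
  · have hpos : 0 < ‖((xc P : ℚ) : ℂ) - α‖ := norm_pos_iff.mpr (sub_ne_zero.mpr hPα)
    have h := Real.log_le_log one_pos hlo
    rw [Real.log_one, Real.log_mul (mul_pos hK0 hd0).ne' hpos.ne', hlogKd] at h
    linarith

end FA.PrimitiveEDS

end
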